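import Mathlib
import Fermat.Prelude.Def_ModularForm_HeckeOperator
import Fermat.Prelude.Def_ModularCurve_X0
import Fermat.Prelude.Thm_ModularForm_mdifferentiable_heckeT
import Fermat.Prelude.Thm_ModularForm_mdifferentiable_heckeU
import Fermat.Prelude.Thm_ModularForm_isBoundedAtImInfty_heckeT
import Fermat.Prelude.Thm_ModularForm_isBoundedAtImInfty_heckeU
import Fermat.Prelude.Thm_ModularForm_periodic_heckeT_comp_ofComplex
import Fermat.Prelude.Thm_ModularForm_periodic_heckeU_comp_ofComplex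
import Fermat.Prelude.Thm_UpperHalfPlane_qCoeff_heckeT
import Fermat.Prelude.Thm_UpperHalfPlane_qCoeff_heckeU
import Fermat.Agent.S23.QAlg
import Fermat.Agent.S28.Laurent

/-!
helper28 (P-S28, WP-A, part (A_p), analytic half).

A small calculus of Laurent `q`-expansions for quotients `a / b` of `1`-periodic holomorphic
functions bounded at `i∞` (`b` nowhere vanishing), with the effect of `τ ↦ p τ` (`qExpand`) and of
`τ ↦ ∑ i < p, G ((τ + i) / p)` (`p • qContract`).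
-/

set_option autoImplicit false

open UpperHalfPlane ModularForm Filter
open scoped MatrixGroups Manifold ModularForm

namespace Fermat.Agent.S28.ModEq

open Fermat.Agent.S23 ModularCurve

/-- `1`-periodic holomorphic functions bounded at `i∞`. -/
abbrev PA : Subalgebra ℂ (ℍ → ℂ) := PerAlg 1

/-- the `q`-expansion, as a Laurent series. -/
noncomputable def lam : PA →+* LaurentSeries ℂ :=
  (HahnSeries.ofPowerSeries ℤ ℂ).comp (qExpHom 1 one_pos).toRingHom

theorem lam_apply (F : PA) :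
    lam F = HahnSeries.ofPowerSeries ℤ ℂ (qExpansion 1 (F : ℍ → ℂ)) := rfl

theorem lam_injective : Function.Injective lam := by
  intro F G h
  exact qExpHom_injective 1 one_pos (HahnSeries.ofPowerSeries_injective h)

theorem lam_coeff_natCast (F : PA) (n : ℕ) :
    (lam F).coeff (n : ℤ) = (qExpansion 1 (F : ℍ → ℂ)).coeff n := by
  rw [lam_apply, HahnSeries.ofPowerSeries_apply_coeff]

theorem lam_coeff_of_neg (F : PA) {n : ℤ} (hn : n < 0) : (lam F).coeff n = 0 := by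
  rw [lam_apply]
  exact ModularCurve.ofPowerSeries_coeff_of_neg _ hn

theorem lam_ne_zero {b : PA} (hb : ∀ τ : ℍ, (b : ℍ → ℂ) τ ≠ 0) : lam b ≠ 0 := by
  intro h
  have h0 : b = 0 := lam_injective (by rw [h, map_zero])
  exact hb UpperHalfPlane.I (by rw [h0]; rfl)

/-- `G = a / b` with `a, b` periodic, holomorphic and bounded, `b` nowhere vanishing, and the
Laurent series `g` is the quotient of the `q`-expansions. -/
def HasLaurent (G : ℍ → ℂ) (g : LaurentSeries ℂ) : Prop :=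
  ∃ a b : PA, (∀ τ : ℍ, (b : ℍ → ℂ) τ ≠ 0) ∧ (∀ τ : ℍ, (b : ℍ → ℂ) τ * G τ = (a : ℍ → ℂ) τ) ∧
    lam a = lam b * g

theorem HasLaurent.of_mem (F : PA) : HasLaurent (F : ℍ → ℂ) (lam F) :=
  ⟨F, 1, fun _ => one_ne_zero, fun τ => by simp, by rw [map_one, one_mul]⟩

/-- any other representation as a quotient has the same quotient of `q`-expansions -/
theorem HasLaurent.rep {G : ℍ → ℂ} {g : LaurentSeries ℂ} (h : HasLaurent G g) (a' b' : PA)
    (hG : ∀ τ : ℍ, (b' : ℍ → ℂ) τ * G τ = (a' : ℍ → ℂ) τ) :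
    lam a' = lam b' * g := by
  obtain ⟨a, b, hb, hab, hlam⟩ := h
  have h1 : a' * b = a * b' := by
    apply Subtype.ext
    funext τ
    show (a' : ℍ → ℂ) τ * (b : ℍ → ℂ) τ = (a : ℍ → ℂ) τ * (b' : ℍ → ℂ) τ
    rw [← hG τ, ← hab τ]
    ring
  have h2 : lam a' * lam b = lam a * lam b' := by rw [← map_mul, ← map_mul, h1]
  have h3 : lam b ≠ 0 := lam_ne_zero hb
  apply mul_right_cancel₀ h3
  rw [h2, hlam]
  ring

theorem HasLaurent.unique {G : ℍ → ℂ} {g g' : LaurentSeries ℂ} (h : HasLaurent G g)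
    (h' : HasLaurent G g') : g = g' := by
  obtain ⟨a, b, hb, hab, hlam⟩ := h'
  have h1 := h.rep a b hab
  have h3 : lam b ≠ 0 := lam_ne_zero hb
  apply mul_left_cancel₀ h3
  rw [← h1, hlam]

theorem HasLaurent.congr {G G' : ℍ → ℂ} {g : LaurentSeries ℂ} (h : HasLaurent G g)
    (hGG' : ∀ τ, G' τ = G τ) : HasLaurent G' g := by
  obtain ⟨a, b, hb, hab, hlam⟩ := h
  exact ⟨a, b, hb, fun τ => by rw [hGG' τ, hab τ], hlam⟩

theorem HasLaurent.add {G H : ℍ → ℂ} {g h : LaurentSeries ℂ} (hG : HasLaurent G g)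
    (hH : HasLaurent H h) : HasLaurent (fun τ => G τ + H τ) (g + h) := by
  obtain ⟨a, b, hb, hab, hlam⟩ := hG
  obtain ⟨a', b', hb', hab', hlam'⟩ := hH
  refine ⟨a * b' + a' * b, b * b', fun τ => mul_ne_zero (hb τ) (hb' τ), fun τ => ?_, ?_⟩
  · show (b : ℍ → ℂ) τ * (b' : ℍ → ℂ) τ * (G τ + H τ)
      = (a : ℍ → ℂ) τ * (b' : ℍ → ℂ) τ + (a' : ℍ → ℂ) τ * (b : ℍ → ℂ) τ
    rw [← hab τ, ← hab' τ]
    ring
  · rw [map_add, map_mul, map_mul, map_mul, hlam, hlam']
    ring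

theorem HasLaurent.mul {G H : ℍ → ℂ} {g h : LaurentSeries ℂ} (hG : HasLaurent G g)
    (hH : HasLaurent H h) : HasLaurent (fun τ => G τ * H τ) (g * h) := by
  obtain ⟨a, b, hb, hab, hlam⟩ := hG
  obtain ⟨a', b', hb', hab', hlam'⟩ := hH
  refine ⟨a * a', b * b', fun τ => mul_ne_zero (hb τ) (hb' τ), fun τ => ?_, ?_⟩
  · show (b : ℍ → ℂ) τ * (b' : ℍ → ℂ) τ * (G τ * H τ) = (a : ℍ → ℂ) τ * (a' : ℍ → ℂ) τ
    rw [← hab τ, ← hab' τ]
    ring
  · rw [map_mul, map_mul, hlam, hlam']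
    ring

theorem HasLaurent.const (c : ℂ) : HasLaurent (fun _ => c) (HahnSeries.C c) := by
  have h := HasLaurent.of_mem (algebraMap ℂ PA c)
  have h1 : lam (algebraMap ℂ PA c) = HahnSeries.C c := by
    rw [lam_apply]
    have : qExpansion 1 ((algebraMap ℂ PA c : PA) : ℍ → ℂ) = PowerSeries.C c := by
      have := (qExpHom 1 one_pos).commutes c
      rw [qExpHom_apply] at this
      rw [this]
      rfl
    rw [this, HahnSeries.ofPowerSeries_C]
  rw [h1] at h
  exact h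

theorem HasLaurent.pow {G : ℍ → ℂ} {g : LaurentSeries ℂ} (hG : HasLaurent G g) (n : ℕ) :
    HasLaurent (fun τ => G τ ^ n) (g ^ n) := by
  induction n with
  | zero =>
    simp only [pow_zero]
    have := HasLaurent.const 1
    rwa [map_one] at this
  | succ n ih =>
    simp only [pow_succ]
    exact ih.mul hG

theorem HasLaurent.sum {ι : Type*} (s : Finset ι) {G : ι → ℍ → ℂ} {g : ι → LaurentSeries ℂ}
    (h : ∀ i ∈ s, HasLaurent (G i) (g i)) :
    HasLaurent (fun τ => ∑ i ∈ s, G i τ) (∑ i ∈ s, g i) := by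
  classical
  induction s using Finset.induction_on with
  | empty =>
    simp only [Finset.sum_empty]
    have := HasLaurent.const 0
    rwa [map_zero] at this
  | insert a s ha ih =>
    simp only [Finset.sum_insert ha]
    exact (h a (Finset.mem_insert_self a s)).add
      (ih (fun i hi => h i (Finset.mem_insert_of_mem hi)))

/-- polynomial expressions -/
theorem HasLaurent.eval {G : ℍ → ℂ} {g : LaurentSeries ℂ} (hG : HasLaurent G g)
    (P : Polynomial ℂ) :
    HasLaurent (fun τ => P.eval (G τ)) (∑ k ∈ P.support, HahnSeries.C (P.coeff k) * g ^ k) := by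
  have h1 : (fun τ => P.eval (G τ)) = fun τ => ∑ k ∈ P.support, P.coeff k * G τ ^ k := by
    funext τ
    rw [Polynomial.eval_eq_sum, Polynomial.sum_def]
  rw [h1]
  exact HasLaurent.sum _ (fun k _ => (HasLaurent.const (P.coeff k)).mul (hG.pow k))

section Operators

variable (p : ℕ) [NeZero p]

theorem ofPowerSeries_expand (f : PowerSeries ℂ) :
    HahnSeries.ofPowerSeries ℤ ℂ (f.expand p (NeZero.ne p))
      = qExpand ℂ p (HahnSeries.ofPowerSeries ℤ ℂ f) := by
  have hp0 : (0 : ℤ) < p := by exact_mod_cast Nat.pos_of_ne_zero (NeZero.ne p)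
  ext k
  rcases lt_or_ge k 0 with hk | hk
  · rw [ModularCurve.ofPowerSeries_coeff_of_neg _ hk]
    by_cases hd : (p : ℤ) ∣ k
    · obtain ⟨m, rfl⟩ := hd
      rw [qExpand_coeff_mul]
      have hm : m < 0 := by
        by_contra hm
        exact absurd hk (not_lt.mpr (mul_nonneg hp0.le (not_lt.mp hm)))
      rw [ModularCurve.ofPowerSeries_coeff_of_neg _ hm]
    · rw [qExpand_coeff_of_not_dvd p _ hd]
  · lift k to ℕ using hk
    rw [HahnSeries.ofPowerSeries_apply_coeff, PowerSeries.coeff_expand]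
    by_cases hd : p ∣ k
    · obtain ⟨m, rfl⟩ := hd
      rw [if_pos (dvd_mul_right p m), Nat.mul_div_cancel_left m (Nat.pos_of_ne_zero (NeZero.ne p))]
      push_cast
      rw [qExpand_coeff_mul, HahnSeries.ofPowerSeries_apply_coeff]
    · rw [if_neg hd, qExpand_coeff_of_not_dvd p _ (by exact_mod_cast hd)]

omit [NeZero p] in
theorem heckeU_mem (k : ℤ) (F : PA) : heckeU k p (F : ℍ → ℂ) ∈ PA :=
  ⟨ModularForm.periodic_heckeU_comp_ofComplex F.2.1 k p,
    ModularForm.mdifferentiable_heckeU F.2.2.1 k p,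
    ModularForm.isBoundedAtImInfty_heckeU F.2.2.2 k p⟩

omit [NeZero p] in
theorem heckeT_mem (k : ℤ) (F : PA) : heckeT k p (F : ℍ → ℂ) ∈ PA :=
  ⟨ModularForm.periodic_heckeT_comp_ofComplex F.2.1 k p,
    ModularForm.mdifferentiable_heckeT F.2.2.1 k p,
    ModularForm.isBoundedAtImInfty_heckeT F.2.2.2 k p⟩

/-- the operator `U_p` (without normalisation issues: `(uP F) τ = p⁻¹ ∑ F ((τ + i) / p)`). -/
noncomputable def uP (F : PA) : PA := ⟨heckeU 1 p (F : ℍ → ℂ), heckeU_mem p 1 F⟩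

theorem uP_apply (F : PA) (τ : ℍ) :
    (uP p F : ℍ → ℂ) τ = (p : ℂ)⁻¹ * ∑ i ∈ Finset.range p, (F : ℍ → ℂ) (heckeMatrix p i • τ) :=
  heckeU_apply 1 (NeZero.ne p) _ τ

/-- `F ↦ F (p τ)`. -/
noncomputable def vP (F : PA) : PA :=
  ⟨heckeT 1 p (F : ℍ → ℂ), heckeT_mem p 1 F⟩ - ⟨heckeU 1 p (F : ℍ → ℂ), heckeU_mem p 1 F⟩

theorem vP_apply (F : PA) (τ : ℍ) :
    (vP p F : ℍ → ℂ) τ = (F : ℍ → ℂ) (heckeDiagMatrix p • τ) := by
  show heckeT 1 p (F : ℍ → ℂ) τ - heckeU 1 p (F : ℍ → ℂ) τ = _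
  rw [heckeT_eq_heckeU_add, Pi.add_apply, add_sub_cancel_left,
    slash_heckeDiagMatrix_apply 1 (NeZero.ne p), sub_self, zpow_zero, one_mul]

theorem qExpansion_uP_coeff (F : PA) (n : ℕ) :
    (qExpansion 1 (uP p F : ℍ → ℂ)).coeff n = (qExpansion 1 (F : ℍ → ℂ)).coeff (n * p) := by
  have := UpperHalfPlane.qCoeff_heckeU F.2.1 F.2.2.1 F.2.2.2 1 (NeZero.ne p) n
  rw [ModularFormClass.qCoeff, coeffHeckeU_apply, ModularFormClass.qCoeff] at this
  exact this

theorem lam_uP (F : PA) : lam (uP p F) = qContract p (lam F) := by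
  ext k
  rw [qContract_coeff]
  rcases lt_or_ge k 0 with hk | hk
  · have hp0 : (0 : ℤ) < p := by exact_mod_cast Nat.pos_of_ne_zero (NeZero.ne p)
    rw [lam_coeff_of_neg _ hk, lam_coeff_of_neg _ (mul_neg_of_pos_of_neg hp0 hk)]
  · lift k to ℕ using hk
    rw [lam_coeff_natCast, qExpansion_uP_coeff, ← lam_coeff_natCast]
    congr 1
    push_cast
    ring

theorem qExpansion_vP (F : PA) :
    qExpansion 1 (vP p F : ℍ → ℂ) = (qExpansion 1 (F : ℍ → ℂ)).expand p (NeZero.ne p) := by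
  have h1 : qExpansion 1 (vP p F : ℍ → ℂ)
      = qExpansion 1 (heckeT 1 p (F : ℍ → ℂ)) - qExpansion 1 (heckeU 1 p (F : ℍ → ℂ)) := by
    have := map_sub (qExpHom 1 one_pos) ⟨heckeT 1 p (F : ℍ → ℂ), heckeT_mem p 1 F⟩
      ⟨heckeU 1 p (F : ℍ → ℂ), heckeU_mem p 1 F⟩
    exact this
  rw [h1]
  ext n
  have hT := UpperHalfPlane.qCoeff_heckeT F.2.1 F.2.2.1 F.2.2.2 1 (NeZero.ne p) n
  have hU := UpperHalfPlane.qCoeff_heckeU F.2.1 F.2.2.1 F.2.2.2 1 (NeZero.ne p) n
  rw [ModularFormClass.qCoeff] at hT hU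
  rw [map_sub, hT, hU, coeffHeckeT_apply, coeffHeckeU_apply, PowerSeries.coeff_expand,
    add_sub_cancel_left, sub_self, zpow_zero, one_mul]
  rfl

theorem lam_vP (F : PA) : lam (vP p F) = qExpand ℂ p (lam F) := by
  rw [lam_apply, qExpansion_vP, ofPowerSeries_expand, lam_apply]

/-- `U_p (a(q) b(q^p)) = U_p (a) (q) b(q)` for Laurent series. -/
theorem qContract_mul_qExpand {R : Type*} [CommRing R] (a b : LaurentSeries R) :
    qContract p (a * qExpand R p b) = qContract p a * b := by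
  have hp0 : (p : ℤ) ≠ 0 := by exact_mod_cast NeZero.ne p
  ext n
  rw [qContract_coeff, HahnSeries.coeff_mul, HahnSeries.coeff_mul]
  refine Finset.sum_bij' (fun ij _ => (ij.1 / (p : ℤ), ij.2 / (p : ℤ)))
    (fun ij _ => ((p : ℤ) * ij.1, (p : ℤ) * ij.2)) ?_ ?_ ?_ ?_ ?_
  · rintro ⟨i, j⟩ hij
    simp only [Finset.mem_antidiagonal, HahnSeries.mem_support, ne_eq] at hij ⊢
    obtain ⟨hi, hj, hsum⟩ := hij
    have hdj : (p : ℤ) ∣ j := by
      by_contra hd
      exact hj (qExpand_coeff_of_not_dvd p b hd)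
    obtain ⟨j', rfl⟩ := hdj
    have hdi : (p : ℤ) ∣ i := by
      have : (p : ℤ) ∣ i + (p : ℤ) * j' := hsum ▸ dvd_mul_right _ _
      exact (Int.dvd_add_left (dvd_mul_right _ _)).mp this
    obtain ⟨i', rfl⟩ := hdi
    rw [Int.mul_ediv_cancel_left _ hp0, Int.mul_ediv_cancel_left _ hp0]
    refine ⟨?_, ?_, ?_⟩
    · rwa [qContract_coeff]
    · rwa [qExpand_coeff_mul] at hj
    · apply mul_left_cancel₀ hp0
      rw [mul_add, hsum]
  · rintro ⟨i, j⟩ hij
    simp only [Finset.mem_antidiagonal, HahnSeries.mem_support, ne_eq] at hij ⊢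
    obtain ⟨hi, hj, hsum⟩ := hij
    refine ⟨?_, ?_, ?_⟩
    · rwa [qContract_coeff] at hi
    · rwa [qExpand_coeff_mul]
    · rw [← mul_add, hsum]
  · rintro ⟨i, j⟩ hij
    simp only [Finset.mem_antidiagonal, HahnSeries.mem_support, ne_eq] at hij
    obtain ⟨hi, hj, hsum⟩ := hij
    have hdj : (p : ℤ) ∣ j := by
      by_contra hd
      exact hj (qExpand_coeff_of_not_dvd p b hd)
    obtain ⟨j', rfl⟩ := hdj
    have hdi : (p : ℤ) ∣ i := by
      have : (p : ℤ) ∣ i + (p : ℤ) * j' := hsum ▸ dvd_mul_right _ _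
      exact (Int.dvd_add_left (dvd_mul_right _ _)).mp this
    obtain ⟨i', rfl⟩ := hdi
    simp only [Int.mul_ediv_cancel_left _ hp0]
  · rintro ⟨i, j⟩ _
    simp only [Int.mul_ediv_cancel_left _ hp0]
  · rintro ⟨i, j⟩ hij
    simp only [Finset.mem_antidiagonal, HahnSeries.mem_support, ne_eq] at hij
    obtain ⟨hi, hj, hsum⟩ := hij
    have hdj : (p : ℤ) ∣ j := by
      by_contra hd
      exact hj (qExpand_coeff_of_not_dvd p b hd)
    obtain ⟨j', rfl⟩ := hdj
    have hdi : (p : ℤ) ∣ i := by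
      have : (p : ℤ) ∣ i + (p : ℤ) * j' := hsum ▸ dvd_mul_right _ _
      exact (Int.dvd_add_left (dvd_mul_right _ _)).mp this
    obtain ⟨i', rfl⟩ := hdi
    simp only [Int.mul_ediv_cancel_left _ hp0]
    rw [qContract_coeff, qExpand_coeff_mul]

theorem HasLaurent.comp_diag {G : ℍ → ℂ} {g : LaurentSeries ℂ} (hG : HasLaurent G g) :
    HasLaurent (fun τ => G (heckeDiagMatrix p • τ)) (qExpand ℂ p g) := by
  obtain ⟨a, b, hb, hab, hlam⟩ := hG
  refine ⟨vP p a, vP p b, fun τ => ?_, fun τ => ?_, ?_⟩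
  · rw [vP_apply]
    exact hb _
  · rw [vP_apply, vP_apply]
    exact hab _
  · rw [lam_vP, lam_vP, hlam, map_mul]

/-- a `1`-periodic function takes the same values at `τ` and at `p • ((τ + i) / p)`. -/
theorem apply_diag_smul_heckeMatrix_smul (F : PA) (i : ℕ) (τ : ℍ) :
    (F : ℍ → ℂ) (heckeDiagMatrix p • heckeMatrix p i • τ) = (F : ℍ → ℂ) τ := by
  have hper := F.2.1
  have h1 : ((heckeDiagMatrix p • heckeMatrix p i • τ : ℍ) : ℂ) = (τ : ℂ) + i := by
    rw [coe_heckeDiagMatrix_smul (NeZero.ne p), coe_heckeMatrix_smul (NeZero.ne p)]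
    have hp' : (p : ℂ) ≠ 0 := by exact_mod_cast NeZero.ne p
    field_simp
  have h2 := (hper.nat_mul i) (τ : ℂ)
  simp only [Function.comp_apply, Complex.ofReal_one, mul_one] at h2
  rw [← h1, ofComplex_apply, ofComplex_apply] at h2
  exact h2

/-- the effect of `G ↦ ∑ i < p, G ((τ + i) / p)` on Laurent expansions, for `G = a / b (p τ)`. -/
theorem HasLaurent.sum_heckeMatrix {G : ℍ → ℂ} {g : LaurentSeries ℂ} (hG : HasLaurent G g)
    (a b : PA) (hb : ∀ τ : ℍ, (b : ℍ → ℂ) τ ≠ 0)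
    (hab : ∀ τ : ℍ, (b : ℍ → ℂ) (heckeDiagMatrix p • τ) * G τ = (a : ℍ → ℂ) τ) :
    HasLaurent (fun τ => ∑ i ∈ Finset.range p, G (heckeMatrix p i • τ))
      (HahnSeries.C (p : ℂ) * qContract p g) := by
  have hp' : (p : ℂ) ≠ 0 := by exact_mod_cast NeZero.ne p
  have h1 : lam a = lam (vP p b) * g := hG.rep a (vP p b) (fun τ => by rw [vP_apply]; exact hab τ)
  refine ⟨algebraMap ℂ PA (p : ℂ) * uP p a, b, hb, fun τ => ?_, ?_⟩
  · show (b : ℍ → ℂ) τ * _ = (p : ℂ) * (uP p a : ℍ → ℂ) τ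
    rw [uP_apply, ← mul_assoc, mul_inv_cancel₀ hp', one_mul, Finset.mul_sum]
    refine Finset.sum_congr rfl fun i _ => ?_
    rw [← hab, apply_diag_smul_heckeMatrix_smul]
  · rw [map_mul, lam_uP, h1, lam_vP, mul_comm (qExpand ℂ p (lam b)) g, qContract_mul_qExpand]
    have h2 : lam (algebraMap ℂ PA (p : ℂ)) = HahnSeries.C (p : ℂ) := by
      have := (HasLaurent.const (p : ℂ)).rep (algebraMap ℂ PA (p : ℂ)) 1 (fun τ => by simp)
      rw [this, map_one, one_mul]
    rw [h2]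
    ring

end Operators

end Fermat.Agent.S28.ModEq
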