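import Mathlib
import Fermat.Prelude.Def_ModularForm_HeckeOperator
import Fermat.Prelude.Thm_ModularForm_heckeT_slash_eq_self_of_mem_Gamma0
import Fermat.Prelude.Thm_ModularForm_mdifferentiable_heckeT
import Fermat.Agent.S24.JDef
import Fermat.Agent.S24.Growth

/-!
helper28 (P-S28, WP-A, part (A_p), analytic half).

Power sums of the `p + 1` conjugates `j (p τ)`, `j ((τ + i) / p)` (`i < p`) of the `j`-function
are polynomials in `j`.
-/

set_option autoImplicit false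

open UpperHalfPlane ModularForm Filter
open scoped MatrixGroups Manifold ModularForm

namespace Fermat.Agent.S28.ModEq

open Fermat.Agent.S24

/-- the `m`-th power sum of the `p + 1` conjugates of `j` of level `p` -/
noncomputable def psumFn (p m : ℕ) (τ : ℍ) : ℂ :=
  (∑ i ∈ Finset.range p, jFn (heckeMatrix p i • τ) ^ m) + jFn (heckeDiagMatrix p • τ) ^ m

theorem psumFn_eq_heckeT {p : ℕ} (hp : p ≠ 0) (m : ℕ) (τ : ℍ) :
    psumFn p m τ = (p : ℂ) * heckeT 0 p (fun z => jFn z ^ m) τ := by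
  have hp' : (p : ℂ) ≠ 0 := by exact_mod_cast hp
  rw [heckeT_apply 0 hp, psumFn, zero_sub, zpow_neg_one, mul_add, ← mul_assoc, ← mul_assoc,
    mul_inv_cancel₀ hp', one_mul, one_mul]

theorem jFn_pow_slash (m : ℕ) (γ : GL (Fin 2) ℝ)
    (hγ : γ ∈ (CongruenceSubgroup.Gamma0 1 : Subgroup (GL (Fin 2) ℝ))) :
    SlashAction.map (0 : ℤ) γ (fun z => jFn z ^ m) = fun z => jFn z ^ m := by
  obtain ⟨g, -, rfl⟩ := hγ
  funext z
  have := SL_slash_apply (fun z => jFn z ^ m) (k := 0) g z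
  simp only [zpow_neg, zpow_zero, inv_one, mul_one] at this
  rw [← jFn_smul g z]
  exact this

theorem psumFn_smul {p : ℕ} (hp : p.Prime) (m : ℕ) (g : SL(2, ℤ)) (τ : ℍ) :
    psumFn p m (g • τ) = psumFn p m τ := by
  have hp0 : p ≠ 0 := hp.ne_zero
  have hmem : (g : GL (Fin 2) ℝ) ∈ (CongruenceSubgroup.Gamma0 1 : Subgroup (GL (Fin 2) ℝ)) := by
    refine Subgroup.mem_map_of_mem _ ?_
    rw [CongruenceSubgroup.Gamma0_mem]
    exact Subsingleton.elim _ _
  have hp1 : ¬ p ∣ 1 := fun h => hp.one_lt.ne' (Nat.dvd_one.mp h)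
  have key := heckeT_slash_eq_self_of_mem_Gamma0 (N := 1) 0 hp hp1
    (f := fun z => jFn z ^ m) (jFn_pow_slash m) (g : GL (Fin 2) ℝ) hmem
  have h2 := congrFun key τ
  have h3 := SL_slash_apply (heckeT 0 p (fun z => jFn z ^ m)) (k := 0) g τ
  simp only [zpow_neg, zpow_zero, inv_one, mul_one] at h3
  rw [psumFn_eq_heckeT hp0, psumFn_eq_heckeT hp0]
  congr 1
  rw [← h3]
  exact h2

theorem psumFn_mdiff (p m : ℕ) (hp : p ≠ 0) : MDiff (psumFn p m) := by
  have h1 : MDiff (fun z => jFn z ^ m) := jFn_mdiff.pow m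
  have h2 := ModularForm.mdifferentiable_heckeT h1 0 p
  have h3 : psumFn p m = fun τ => (p : ℂ) * heckeT 0 p (fun z => jFn z ^ m) τ := by
    funext τ
    exact psumFn_eq_heckeT hp m τ
  rw [h3]
  exact mdifferentiable_const.mul h2

theorem modGrowth_jFn_heckeMatrix {p : ℕ} (hp : p ≠ 0) (i : ℕ) :
    ModGrowth (fun τ : ℍ => jFn (heckeMatrix p i • τ)) := by
  refine modGrowth_jFn_smul _ (det_heckeMatrix_pos p i) ⟨!![1, (i : ℤ); 0, (p : ℤ)], ?_⟩
  rw [val_heckeMatrix hp]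
  ext a b
  fin_cases a <;> fin_cases b <;> simp

theorem modGrowth_jFn_heckeDiagMatrix {p : ℕ} (hp : p ≠ 0) :
    ModGrowth (fun τ : ℍ => jFn (heckeDiagMatrix p • τ)) := by
  refine modGrowth_jFn_smul _ (det_heckeDiagMatrix_pos p) ⟨!![(p : ℤ), 0; 0, 1], ?_⟩
  rw [val_heckeDiagMatrix hp]
  ext a b
  fin_cases a <;> fin_cases b <;> simp

theorem psumFn_modGrowth {p : ℕ} (hp : p ≠ 0) (m : ℕ) : ModGrowth (psumFn p m) := by
  have h1 : ModGrowth (fun τ : ℍ => ∑ i ∈ Finset.range p, jFn (heckeMatrix p i • τ) ^ m) :=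
    ModGrowth.sum _ (fun i _ => (modGrowth_jFn_heckeMatrix hp i).pow m)
  exact h1.add ((modGrowth_jFn_heckeDiagMatrix hp).pow m)

/-- **Power sums of the conjugates of `j` are polynomials in `j`.** -/
theorem exists_polynomial_psumFn {p : ℕ} (hp : p.Prime) (m : ℕ) :
    ∃ P : Polynomial ℂ, ∀ τ : ℍ, psumFn p m τ = P.eval (jFn τ) :=
  exists_polynomial_jFn_of_modGrowth (psumFn p m) (psumFn_mdiff p m hp.ne_zero)
    (fun g τ => psumFn_smul hp m g τ) (psumFn_modGrowth hp.ne_zero m)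

end Fermat.Agent.S28.ModEq
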