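import Mathlib
import Fermat.Agent.S24.JDef
import Fermat.Agent.S24.Growth
import Fermat.Agent.S24.JQExp
import Fermat.Agent.S28.ModEq.PowerSum
import Fermat.Agent.S28.ModEq.Bridge

/-!
helper28 (P-S28, WP-A, part (A_p), analytic half).

For the analytic `j`-series `jAn = (q-expansion of E₄)³ / (q-expansion of Δ)` and a prime `p`:
`p • U_p (jAn ^ m) + jAn(q^p) ^ m` is a polynomial in `jAn`.
-/

set_option autoImplicit false

open UpperHalfPlane ModularForm Filter Asymptotics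
open scoped MatrixGroups Manifold ModularForm Real

namespace Fermat.Agent.S28.ModEq

open Fermat.Agent.S23 Fermat.Agent.S24 ModularCurve

local notation "Δ" => ModularForm.discriminant

/-- `E₄` as an element of `PA`. -/
noncomputable def e4A : PA :=
  ⟨(E₄ : ℍ → ℂ), SlashInvariantFormClass.periodic_comp_ofComplex E₄ one_mem_strictPeriods_SL,
    ModularFormClass.holo E₄, ModularFormClass.bdd_at_infty E₄⟩

/-- `Δ` as an element of `PA`. -/
noncomputable def dA : PA :=
  ⟨(CuspForm.discriminant : ℍ → ℂ),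
    SlashInvariantFormClass.periodic_comp_ofComplex CuspForm.discriminant one_mem_strictPeriods_SL,
    CuspFormClass.holo CuspForm.discriminant,
    (CuspFormClass.zero_at_infty CuspForm.discriminant).isBoundedAtImInfty⟩

theorem e4A_apply (τ : ℍ) : (e4A : ℍ → ℂ) τ = E₄ τ := rfl

theorem dA_apply (τ : ℍ) : (dA : ℍ → ℂ) τ = Δ τ := by
  show (CuspForm.discriminant : ℍ → ℂ) τ = _
  rw [CuspForm.coe_discriminant]

theorem dA_ne_zero (τ : ℍ) : (dA : ℍ → ℂ) τ ≠ 0 := by
  rw [dA_apply]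
  exact discriminant_ne_zero τ

/-- the analytic `j`-series. -/
noncomputable def jAn : LaurentSeries ℂ := lam e4A ^ 3 * (lam dA)⁻¹

theorem lam_dA_mul_jAn : lam dA * jAn = lam e4A ^ 3 := by
  rw [jAn, mul_comm, mul_assoc, inv_mul_cancel₀ (lam_ne_zero dA_ne_zero), mul_one]

theorem hasLaurent_jFn : HasLaurent jFn jAn := by
  refine ⟨e4A ^ 3, dA, dA_ne_zero, fun τ => ?_, ?_⟩
  · show (dA : ℍ → ℂ) τ * jFn τ = (e4A : ℍ → ℂ) τ ^ 3
    rw [dA_apply, e4A_apply, mul_comm, jFn_mul_discriminant]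
  · rw [map_pow, lam_dA_mul_jAn]

section Level

variable (p : ℕ) [NeZero p]

theorem heckeDiagMatrix_apply_one_zero : (heckeDiagMatrix p : GL (Fin 2) ℝ) 1 0 = 0 := by
  have := congrFun (congrFun (val_heckeDiagMatrix (NeZero.ne p)) 1) 0
  simpa using this

theorem im_heckeDiagMatrix_smul (τ : ℍ) : (heckeDiagMatrix p • τ).im = p * τ.im := by
  have h := congrArg Complex.im (coe_heckeDiagMatrix_smul (NeZero.ne p) τ)
  rw [UpperHalfPlane.coe_im] at h
  rw [h]
  simp

/-- `j (τ) Δ (p τ)` is bounded at `i∞`. -/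
theorem isBoundedAtImInfty_jFn_mul_discriminant_diag :
    IsBoundedAtImInfty (fun τ : ℍ => jFn τ * Δ (heckeDiagMatrix p • τ)) := by
  have h1 : (fun τ : ℍ => Δ (heckeDiagMatrix p • τ) ^ 1) =O[atImInfty]
      fun τ : ℍ => Real.exp (-(2 * π * (1 : ℕ) * (heckeDiagMatrix p • τ).im)) :=
    (discriminant_pow_isBigO_exp 1).comp_tendsto
      (tendsto_smul_atImInfty (heckeDiagMatrix_apply_one_zero p))
  have h2 := jFn_isBigO_exp.mul h1
  have h3 : (fun τ : ℍ => jFn τ * Δ (heckeDiagMatrix p • τ) ^ 1) =O[atImInfty]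
      (1 : ℍ → ℝ) := by
    refine h2.trans ?_
    refine IsBigO.of_bound 1 (Eventually.of_forall fun τ => ?_)
    rw [← Real.exp_add, im_heckeDiagMatrix_smul]
    simp only [Pi.one_apply, norm_one, mul_one, Real.norm_eq_abs, abs_of_pos (Real.exp_pos _)]
    rw [Real.exp_le_one_iff]
    have hτ : 0 < τ.im := τ.im_pos
    have hp1 : (1 : ℝ) ≤ p := by exact_mod_cast Nat.one_le_iff_ne_zero.mpr (NeZero.ne p)
    have hpi := Real.pi_pos
    have : 2 * π * τ.im ≤ 2 * π * (p * τ.im) := by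
      have : τ.im ≤ p * τ.im := by nlinarith
      nlinarith
    push_cast
    linarith
  refine h3.congr_left (fun τ => ?_)
  rw [pow_one]

/-- the bounded function `j (τ) ^ m Δ (p τ) ^ m`, as an element of `PA`. -/
noncomputable def fA (m : ℕ) : PA :=
  ⟨fun τ => jFn τ ^ m * (vP p dA : ℍ → ℂ) τ ^ m, by
    refine ⟨?_, (jFn_mdiff.pow m).mul ((vP p dA).2.2.1.pow m), ?_⟩
    · intro z
      have h1 := e4A.2.1 z
      have h2 := dA.2.1 z
      have h3 := (vP p dA).2.1 z
      simp only [Function.comp_apply] at h1 h2 h3 ⊢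
      rw [jFn, jFn, ← e4A_apply, ← e4A_apply, ← dA_apply, ← dA_apply, h1, h2, h3]
    · have h := isBoundedAtImInfty_pow (isBoundedAtImInfty_jFn_mul_discriminant_diag p) m
      refine h.congr_left (fun τ => ?_)
      rw [vP_apply, dA_apply, mul_pow]⟩

theorem fA_apply (m : ℕ) (τ : ℍ) :
    (fA p m : ℍ → ℂ) τ = jFn τ ^ m * Δ (heckeDiagMatrix p • τ) ^ m := by
  show jFn τ ^ m * (vP p dA : ℍ → ℂ) τ ^ m = _
  rw [vP_apply, dA_apply]

/-- Laurent expansion of `∑ i < p, j ((τ + i) / p) ^ m`. -/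
theorem hasLaurent_sum_jFn_pow (m : ℕ) :
    HasLaurent (fun τ => ∑ i ∈ Finset.range p, jFn (heckeMatrix p i • τ) ^ m)
      (HahnSeries.C (p : ℂ) * qContract p (jAn ^ m)) := by
  refine HasLaurent.sum_heckeMatrix p (G := fun τ => jFn τ ^ m) (hasLaurent_jFn.pow m)
    (fA p m) (dA ^ m) (fun τ => pow_ne_zero m (dA_ne_zero τ)) (fun τ => ?_)
  show (dA : ℍ → ℂ) (heckeDiagMatrix p • τ) ^ m * jFn τ ^ m = _
  rw [fA_apply, dA_apply, mul_comm]

/-- Laurent expansion of the power sums of the conjugates of `j`. -/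
theorem hasLaurent_psumFn (m : ℕ) :
    HasLaurent (psumFn p m)
      (HahnSeries.C (p : ℂ) * qContract p (jAn ^ m) + qExpand ℂ p jAn ^ m) :=
  (hasLaurent_sum_jFn_pow p m).add ((hasLaurent_jFn.comp_diag p).pow m)

end Level

/-- **Analytic input for the modular equation of prime level.**  `p • U_p (j ^ m) + j (q ^ p) ^ m`
is a polynomial in `j`, for the analytic `j`-series `jAn`. -/
theorem exists_polynomial_jAn (p : ℕ) [NeZero p] (hp : p.Prime) (m : ℕ) :
    ∃ P : Polynomial ℂ, Polynomial.aeval jAn P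
      = HahnSeries.C (p : ℂ) * qContract p (jAn ^ m) + qExpand ℂ p jAn ^ m := by
  obtain ⟨P, hP⟩ := exists_polynomial_psumFn hp m
  refine ⟨P, ?_⟩
  have h1 := (hasLaurent_jFn.eval P).congr (G' := psumFn p m) hP
  have h2 := h1.unique (hasLaurent_psumFn p m)
  rw [← h2, Polynomial.aeval_def, Polynomial.eval₂_eq_sum, Polynomial.sum_def]
  refine Finset.sum_congr rfl fun k _ => ?_
  rw [C_eq_algebraMap_laurent]

/-- the analytic `j`-series is the Prelude series `jqModC ℂ`. -/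
theorem jAn_eq_jqModC : jAn = jqModC ℂ := by
  have hd : lam dA ≠ 0 := lam_ne_zero dA_ne_zero
  have h1 : lam e4A = HahnSeries.ofPowerSeries ℤ ℂ (eisenstein4.map (Int.castRingHom ℂ)) := by
    rw [lam_apply]
    show HahnSeries.ofPowerSeries ℤ ℂ (qExpansion 1 (E₄ : ℍ → ℂ)) = _
    rw [Fermat.Agent.S24.JQExp.qExpansion_E₄]
  have h2 : lam dA = HahnSeries.ofPowerSeries ℤ ℂ
      ((PowerSeries.X * dedekindEtaUnit).map (Int.castRingHom ℂ)) := by
    rw [lam_apply]
    show HahnSeries.ofPowerSeries ℤ ℂ (qExpansion 1 (CuspForm.discriminant : ℍ → ℂ)) = _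
    rw [CuspForm.coe_discriminant, Fermat.Agent.S24.JQExp.qExpansion_discriminant]
  have h3 : jqModC ℂ * lam dA = lam e4A ^ 3 := by
    rw [h1, h2, jqModC, jNum, map_mul, map_mul, map_mul, map_mul, map_pow, map_pow,
      PowerSeries.map_X, HahnSeries.ofPowerSeries_X]
    have h4 : HahnSeries.ofPowerSeries ℤ ℂ (dedekindEtaUnitInv.map (Int.castRingHom ℂ))
        * HahnSeries.ofPowerSeries ℤ ℂ (dedekindEtaUnit.map (Int.castRingHom ℂ)) = 1 := by
      rw [← map_mul, ← map_mul, mul_comm, dedekindEtaUnit_mul_inv, map_one, map_one]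
    have h5 : (HahnSeries.single (-1 : ℤ) (1 : ℂ)) * HahnSeries.single (1 : ℤ) (1 : ℂ) = 1 := by
      rw [HahnSeries.single_mul_single]
      simp
    calc _ = (HahnSeries.single (-1 : ℤ) (1 : ℂ) * HahnSeries.single (1 : ℤ) (1 : ℂ))
          * (HahnSeries.ofPowerSeries ℤ ℂ (dedekindEtaUnitInv.map (Int.castRingHom ℂ))
          * HahnSeries.ofPowerSeries ℤ ℂ (dedekindEtaUnit.map (Int.castRingHom ℂ)))
          * HahnSeries.ofPowerSeries ℤ ℂ (eisenstein4.map (Int.castRingHom ℂ)) ^ 3 := by ring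
      _ = _ := by rw [h4, h5, one_mul, one_mul]
  rw [jAn, ← h3, mul_assoc, mul_inv_cancel₀ hd, mul_one]

/-- **(AN), analytic input for the modular equation of prime level `p`.**
`j ^ m (q ^ p) + p U_p (j ^ m)` is a polynomial in `j`, for the Prelude series `j = jqModC ℂ`. -/
theorem exists_polynomial_jqModC (p : ℕ) [NeZero p] (hp : p.Prime) (m : ℕ) :
    ∃ P : Polynomial ℂ, Polynomial.aeval (jqModC ℂ) P
      = HahnSeries.C (p : ℂ) * qContract p (jqModC ℂ ^ m) + qExpand ℂ p (jqModC ℂ) ^ m := by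
  rw [← jAn_eq_jqModC]
  exact exists_polynomial_jAn p hp m

/-- **(AN)**, coefficient form. -/
theorem powerSum_eq_aeval (p : ℕ) [NeZero p] (hp : p.Prime) (m : ℕ) :
    ∃ Rm : Polynomial ℂ, ∀ n : ℤ, (Polynomial.aeval (jqModC ℂ) Rm).coeff n
      = (qExpand ℂ p (jqModC ℂ ^ m)).coeff n + (p : ℂ) * (jqModC ℂ ^ m).coeff ((p : ℤ) * n) := by
  obtain ⟨P, hP⟩ := exists_polynomial_jqModC p hp m
  refine ⟨P, fun n => ?_⟩
  rw [hP, HahnSeries.coeff_add, HahnSeries.C_mul_eq_smul, HahnSeries.coeff_smul, qContract_coeff,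
    map_pow, add_comm, smul_eq_mul]

end Fermat.Agent.S28.ModEq
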