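import Mathlib

set_option autoImplicit false

/-!
Newton's identities in membership form: if all power sums of a finite family lie in a subring
closed under division by positive integers, then so do the elementary symmetric functions and
the coefficients of `∏ (X - ρ i)`.
-/

namespace Fermat.Agent.S28.ModEq

open Polynomial

variable {A : Type*} [CommRing A]

theorem esymm_mem_of_psum_mem (B : Subring A)
    (hdiv : ∀ (n : ℕ) (x : A), 0 < n → (n : A) * x ∈ B → x ∈ B)
    {σ : Type*} [Fintype σ] (ρ : σ → A)
    (h : ∀ m : ℕ, 1 ≤ m → ∑ i, ρ i ^ m ∈ B) (k : ℕ) :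
    (Finset.univ.val.map ρ).esymm k ∈ B := by
  induction k using Nat.strong_induction_on with
  | _ k ih =>
    rcases Nat.eq_zero_or_pos k with rfl | hk
    · have h0 : (Finset.univ.val.map ρ).esymm 0 = 1 := by
        simp [Multiset.esymm]
      rw [h0]
      exact Subring.one_mem _
    · apply hdiv k _ hk
      have hN := congrArg (MvPolynomial.aeval (R := ℤ) ρ) (MvPolynomial.mul_esymm_eq_sum σ ℤ k)
      rw [map_mul, map_natCast, MvPolynomial.aeval_esymm_eq_multiset_esymm] at hN
      rw [hN, map_mul, map_pow, map_neg, map_one, map_sum]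
      apply Subring.mul_mem _ (Subring.pow_mem _ (Subring.neg_mem _ (Subring.one_mem _)) _)
      apply Subring.sum_mem
      intro a ha
      rw [Finset.mem_filter, Finset.HasAntidiagonal.mem_antidiagonal] at ha
      rw [map_mul, map_mul, map_pow, map_neg, map_one, MvPolynomial.aeval_esymm_eq_multiset_esymm]
      apply Subring.mul_mem _ (Subring.mul_mem _
        (Subring.pow_mem _ (Subring.neg_mem _ (Subring.one_mem _)) _) (ih a.1 ha.2))
      have hpsum : MvPolynomial.aeval (R := ℤ) ρ (MvPolynomial.psum σ ℤ a.2) = ∑ i, ρ i ^ a.2 := by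
        simp [MvPolynomial.psum]
      rw [hpsum]
      exact h a.2 (by omega)

theorem coeff_prod_X_sub_C_mem_of_psum_mem (B : Subring A)
    (hdiv : ∀ (n : ℕ) (x : A), 0 < n → (n : A) * x ∈ B → x ∈ B)
    {σ : Type*} [Fintype σ] (ρ : σ → A)
    (h : ∀ m : ℕ, 1 ≤ m → ∑ i, ρ i ^ m ∈ B) (k : ℕ) :
    (∏ i, (X - C (ρ i))).coeff k ∈ B := by
  have hprod : (∏ i, (X - C (ρ i))) = ((Finset.univ.val.map ρ).map fun t => X - C t).prod := by
    rw [Multiset.map_map]
    rfl
  rw [hprod]
  by_cases hk : k ≤ Multiset.card (Finset.univ.val.map ρ)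
  · rw [Multiset.prod_X_sub_C_coeff _ hk]
    exact Subring.mul_mem _ (Subring.pow_mem _ (Subring.neg_mem _ (Subring.one_mem _)) _)
      (esymm_mem_of_psum_mem B hdiv ρ h _)
  · rw [not_le] at hk
    rw [Polynomial.coeff_eq_zero_of_natDegree_lt]
    · exact Subring.zero_mem _
    · refine lt_of_le_of_lt ?_ hk
      refine (Polynomial.natDegree_multiset_prod_le _).trans ?_
      rw [Multiset.map_map]
      refine (Multiset.sum_le_card_nsmul _ 1 ?_).trans ?_
      · intro x hx
        obtain ⟨t, -, rfl⟩ := Multiset.mem_map.mp hx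
        exact Polynomial.natDegree_X_sub_C_le _
      · simp

end Fermat.Agent.S28.ModEq
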