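import Mathlib
import Fermat.Prelude.Def_ModularCurve_X0ModL

set_option autoImplicit false

/-!
Formal operators on Laurent series used for the prime-level modular equation:
the twist `f(u) ↦ f(ζ u)`, the operator `U_p`, and the averaging identity
`∑_{i<p} f(ζ^i u) = p • (U_p f)(u^p)`.
-/

namespace Fermat.Agent.S28.ModEq

open HahnSeries ModularCurve

variable {R : Type*} [CommRing R]

/-- The twist `f(u) ↦ f(ζ u)`: the `n`-th coefficient is multiplied by `ζ ^ n`. -/
noncomputable def twistFun (ζ : Rˣ) (f : LaurentSeries R) : LaurentSeries R :=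
  HahnSeries.ofSuppBddBelow (fun n : ℤ => ((ζ ^ n : Rˣ) : R) * f.coeff n) (by
    refine ⟨f.order, fun n hn => ?_⟩
    simp only [Function.mem_support, ne_eq] at hn
    by_contra hlt
    rw [not_le] at hlt
    exact hn (by rw [HahnSeries.coeff_eq_zero_of_lt_order hlt, mul_zero]))

@[simp]
theorem twistFun_coeff (ζ : Rˣ) (f : LaurentSeries R) (n : ℤ) :
    (twistFun ζ f).coeff n = ((ζ ^ n : Rˣ) : R) * f.coeff n := rfl

theorem twistFun_support (ζ : Rˣ) (f : LaurentSeries R) :
    (twistFun ζ f).support = f.support := by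
  ext n
  simp only [mem_support, twistFun_coeff, ne_eq]
  rw [Units.mul_right_eq_zero]

theorem twistFun_mul (ζ : Rˣ) (f g : LaurentSeries R) :
    twistFun ζ (f * g) = twistFun ζ f * twistFun ζ g := by
  ext a
  rw [twistFun_coeff, HahnSeries.coeff_mul, HahnSeries.coeff_mul, Finset.mul_sum]
  have hset : Finset.antidiagonal (twistFun ζ f).isPWO_support (twistFun ζ g).isPWO_support a =
      Finset.antidiagonal f.isPWO_support g.isPWO_support a := by
    ext ij
    simp only [Finset.mem_antidiagonal, twistFun_support]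
  rw [hset]
  refine Finset.sum_congr rfl fun ij hij => ?_
  have hsum : ij.1 + ij.2 = a := (Finset.mem_antidiagonal.mp hij).2.2
  rw [twistFun_coeff, twistFun_coeff, ← hsum, zpow_add, Units.val_mul]
  ring

/-- The twist `f(u) ↦ f(ζ u)` as a ring homomorphism. -/
noncomputable def twist (ζ : Rˣ) : LaurentSeries R →+* LaurentSeries R where
  toFun := twistFun ζ
  map_one' := by
    ext n
    rw [twistFun_coeff, HahnSeries.coeff_one]
    split_ifs with h
    · subst h; simp
    · simp
  map_mul' := twistFun_mul ζ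
  map_zero' := by
    ext n
    simp
  map_add' f g := by
    ext n
    simp [mul_add]

@[simp]
theorem twist_coeff (ζ : Rˣ) (f : LaurentSeries R) (n : ℤ) :
    (twist ζ f).coeff n = ((ζ ^ n : Rˣ) : R) * f.coeff n := rfl

@[simp]
theorem twist_one (f : LaurentSeries R) : twist (1 : Rˣ) f = f := by
  ext n
  simp

theorem twist_twist (ζ ξ : Rˣ) (f : LaurentSeries R) :
    twist ζ (twist ξ f) = twist (ζ * ξ) f := by
  ext n
  simp only [twist_coeff, mul_zpow, Units.val_mul]
  ring

theorem twist_single (ζ : Rˣ) (n : ℤ) (r : R) :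
    twist ζ (HahnSeries.single n r) = HahnSeries.single n (((ζ ^ n : Rˣ) : R) * r) := by
  ext m
  rw [twist_coeff]
  by_cases h : m = n
  · subst h; simp
  · simp [HahnSeries.coeff_single_of_ne h]

theorem twist_C (ζ : Rˣ) (r : R) : twist ζ (HahnSeries.C r) = HahnSeries.C r := by
  rw [HahnSeries.C_apply, twist_single, zpow_zero, Units.val_one, one_mul]

theorem coeffMap_twist {S : Type*} [CommRing S] (φ : R →+* S) (ζ : Rˣ) (f : LaurentSeries R) :
    coeffMap φ (twist ζ f) = twist (Units.map (φ : R →* S) ζ) (coeffMap φ f) := by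
  ext n
  simp only [coeffMap_coeff, twist_coeff, map_mul]
  congr 1
  rw [← map_zpow]
  rfl

theorem twist_qExpand (N : ℕ) [NeZero N] (ζ : Rˣ) (f : LaurentSeries R) :
    twist ζ (qExpand R N f) = qExpand R N (twist (ζ ^ N) f) := by
  ext k
  by_cases hk : (N : ℤ) ∣ k
  · obtain ⟨m, rfl⟩ := hk
    rw [twist_coeff, qExpand_coeff_mul, qExpand_coeff_mul, twist_coeff]
    congr 2
    rw [zpow_mul, zpow_natCast]
  · rw [twist_coeff, qExpand_coeff_of_not_dvd N _ hk, qExpand_coeff_of_not_dvd N _ hk, mul_zero]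

/-- The operator `U_p`: `(U_p f)(n) = f(p n)`. -/
noncomputable def opUFun (p : ℕ) [NeZero p] (f : LaurentSeries R) : LaurentSeries R :=
  HahnSeries.ofSuppBddBelow (fun n : ℤ => f.coeff ((p : ℤ) * n)) (by
    refine ⟨min f.order 0, fun n hn => ?_⟩
    simp only [Function.mem_support, ne_eq] at hn
    have h1 : f.order ≤ (p : ℤ) * n := by
      by_contra hlt
      rw [not_le] at hlt
      exact hn (HahnSeries.coeff_eq_zero_of_lt_order hlt)
    by_contra hlt
    rw [not_le] at hlt
    have hn0 : n < 0 := lt_of_lt_of_le hlt (min_le_right _ _)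
    have hnb : n < f.order := lt_of_lt_of_le hlt (min_le_left _ _)
    have hp : 0 < p := Nat.pos_of_ne_zero (NeZero.ne p)
    have : (p : ℤ) * n ≤ n := by
      have hp1 : (1 : ℤ) ≤ p := by exact_mod_cast hp
      nlinarith
    omega)

@[simp]
theorem opUFun_coeff (p : ℕ) [NeZero p] (f : LaurentSeries R) (n : ℤ) :
    (opUFun p f).coeff n = f.coeff ((p : ℤ) * n) := rfl

/-- The operator `U_p` as a linear map. -/
noncomputable def opU (p : ℕ) [NeZero p] : LaurentSeries R →ₗ[R] LaurentSeries R where
  toFun := opUFun p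
  map_add' f g := by
    ext n
    simp
  map_smul' r f := by
    ext n
    simp

@[simp]
theorem opU_coeff (p : ℕ) [NeZero p] (f : LaurentSeries R) (n : ℤ) :
    (opU p f).coeff n = f.coeff ((p : ℤ) * n) := rfl

theorem coeffMap_opU {S : Type*} [CommRing S] (φ : R →+* S) (p : ℕ) [NeZero p]
    (f : LaurentSeries R) : coeffMap φ (opU p f) = opU p (coeffMap φ f) := by
  ext n
  simp

theorem opU_qExpand (p : ℕ) [NeZero p] (f : LaurentSeries R) :
    opU p (qExpand R p f) = f := by
  ext n
  simp

end Fermat.Agent.S28.ModEq
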