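import Mathlib
import Fermat.Agent.S28.ModEq.Formal

set_option autoImplicit false

/-!
Sums of powers of a root of the `p`-th cyclotomic polynomial (`p` prime) in an arbitrary
commutative ring, and the averaging identity for twists of Laurent series.
-/

namespace Fermat.Agent.S28.ModEq

open HahnSeries ModularCurve Polynomial

variable {R : Type*} [CommRing R]

theorem sum_pow_eq_zero_of_cyclotomic {p : ℕ} (hp : p.Prime) {ζ : R}
    (hζ : (cyclotomic p R).eval ζ = 0) : ∑ i ∈ Finset.range p, ζ ^ i = 0 := by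
  have : Fact p.Prime := ⟨hp⟩
  rw [cyclotomic_prime, eval_finsetSum] at hζ
  simpa using hζ

theorem pow_eq_one_of_cyclotomic {p : ℕ} (hp : p.Prime) {ζ : R}
    (hζ : (cyclotomic p R).eval ζ = 0) : ζ ^ p = 1 := by
  have h := sum_pow_eq_zero_of_cyclotomic hp hζ
  have h2 : (∑ i ∈ Finset.range p, ζ ^ i) * (ζ - 1) = ζ ^ p - 1 := geom_sum_mul ζ p
  rw [h, zero_mul] at h2
  exact (sub_eq_zero.mp h2.symm)

theorem sum_pow_mul_eq_zero {p : ℕ} (hp : p.Prime) {ζ : R}
    (hζ : (cyclotomic p R).eval ζ = 0) {k : ℕ} (hk : Nat.Coprime k p) :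
    ∑ i ∈ Finset.range p, ζ ^ (i * k) = 0 := by
  have h1 := pow_eq_one_of_cyclotomic hp hζ
  have hpos : 0 < p := hp.pos
  have himg : (Finset.range p).image (fun i => i * k % p) = Finset.range p := by
    apply Finset.eq_of_subset_of_card_le
    · intro j hj
      obtain ⟨i, -, rfl⟩ := Finset.mem_image.mp hj
      exact Finset.mem_range.mpr (Nat.mod_lt _ hpos)
    · rw [Finset.card_image_of_injOn]
      intro i hi i' hi' h
      have hi := Finset.mem_range.mp hi
      have hi' := Finset.mem_range.mp hi'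
      have hmod : i * k ≡ i' * k [MOD p] := h
      have hcop : Nat.gcd p k = 1 := Nat.coprime_comm.mp hk
      have := Nat.ModEq.cancel_right_of_coprime hcop hmod
      exact Nat.ModEq.eq_of_lt_of_lt this hi hi'
  have hinj : Set.InjOn (fun i => i * k % p) (Finset.range p : Set ℕ) := by
    intro i hi i' hi' h
    have hi := Finset.mem_range.mp hi
    have hi' := Finset.mem_range.mp hi'
    have hmod : i * k ≡ i' * k [MOD p] := h
    have hcop : Nat.gcd p k = 1 := Nat.coprime_comm.mp hk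
    have := Nat.ModEq.cancel_right_of_coprime hcop hmod
    exact Nat.ModEq.eq_of_lt_of_lt this hi hi'
  calc ∑ i ∈ Finset.range p, ζ ^ (i * k)
      = ∑ i ∈ Finset.range p, ζ ^ (i * k % p) :=
        Finset.sum_congr rfl fun i _ => pow_eq_pow_mod _ h1
    _ = ∑ j ∈ (Finset.range p).image (fun i => i * k % p), ζ ^ j :=
        (Finset.sum_image hinj).symm
    _ = ∑ j ∈ Finset.range p, ζ ^ j := by rw [himg]
    _ = 0 := sum_pow_eq_zero_of_cyclotomic hp hζ

theorem unit_pow_eq_one_of_cyclotomic {p : ℕ} (hp : p.Prime) {ζ : Rˣ}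
    (hζ : (cyclotomic p R).eval (ζ : R) = 0) : ζ ^ p = 1 := by
  ext
  rw [Units.val_pow_eq_pow_val, Units.val_one]
  exact pow_eq_one_of_cyclotomic hp hζ

theorem unit_zpow_eq_zpow_emod {p : ℕ} {ζ : Rˣ} (h1 : ζ ^ p = 1) (n : ℤ) :
    ζ ^ n = ζ ^ (n % (p : ℤ)) := by
  conv_lhs => rw [← Int.emod_add_mul_ediv n p]
  rw [zpow_add, zpow_mul, zpow_natCast, h1, one_zpow, mul_one]

theorem sum_zpow_of_cyclotomic {p : ℕ} (hp : p.Prime) {ζ : Rˣ}
    (hζ : (cyclotomic p R).eval (ζ : R) = 0) (n : ℤ) :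
    ∑ i ∈ Finset.range p, (((ζ ^ i) ^ n : Rˣ) : R) = if (p : ℤ) ∣ n then (p : R) else 0 := by
  have h1 := unit_pow_eq_one_of_cyclotomic hp hζ
  have hpos : (0 : ℤ) < p := by exact_mod_cast hp.pos
  have hr0 : 0 ≤ n % (p : ℤ) := Int.emod_nonneg _ hpos.ne'
  have hrp : n % (p : ℤ) < p := Int.emod_lt_of_pos _ hpos
  obtain ⟨r, hr⟩ := Int.eq_ofNat_of_zero_le hr0
  have hterm : ∀ i : ℕ, (((ζ ^ i) ^ n : Rˣ) : R) = (ζ : R) ^ (i * r) := by
    intro i
    rw [← zpow_natCast, ← zpow_mul, mul_comm, zpow_mul, unit_zpow_eq_zpow_emod h1 n, hr,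
      zpow_natCast, zpow_natCast, ← pow_mul, Units.val_pow_eq_pow_val, mul_comm]
  simp_rw [hterm]
  split_ifs with hdvd
  · have : r = 0 := by
      have := Int.emod_eq_zero_of_dvd hdvd
      omega
    subst this
    simp
  · have hrne : r ≠ 0 := by
      intro h0
      apply hdvd
      apply Int.dvd_of_emod_eq_zero
      rw [hr, h0]
      rfl
    have hrlt : r < p := by
      have : (r : ℤ) < p := by rw [← hr]; exact hrp
      exact_mod_cast this
    have hcop : Nat.Coprime r p := by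
      rw [Nat.coprime_comm]
      exact (Nat.Prime.coprime_iff_not_dvd hp).mpr
        (Nat.not_dvd_of_pos_of_lt (Nat.pos_of_ne_zero hrne) hrlt)
    exact sum_pow_mul_eq_zero hp hζ hcop

/-- Averaging over the twists by the powers of `ζ`. -/
theorem sum_twist_eq {p : ℕ} [NeZero p] (hp : p.Prime) {ζ : Rˣ}
    (hζ : (cyclotomic p R).eval (ζ : R) = 0) (f : LaurentSeries R) :
    ∑ i ∈ Finset.range p, twist (ζ ^ i) f = (p : R) • qExpand R p (opU p f) := by
  ext n
  rw [HahnSeries.coeff_sum, HahnSeries.coeff_smul]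
  simp_rw [twist_coeff]
  rw [← Finset.sum_mul, sum_zpow_of_cyclotomic hp hζ n]
  split_ifs with hdvd
  · obtain ⟨k, rfl⟩ := hdvd
    rw [qExpand_coeff_mul, opU_coeff, smul_eq_mul]
  · rw [qExpand_coeff_of_not_dvd p _ hdvd, zero_mul, smul_zero]

end Fermat.Agent.S28.ModEq
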