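import Mathlib
import Fermat.Agent.S28.ModEq.Formal

set_option autoImplicit false

/-!
Laurent series with coefficients in a subring, and the triangular lemma: a polynomial `E`
such that `E(j)` has all its coefficients in a subring `S` has its coefficients in `S`.
-/

namespace Fermat.Agent.S28.ModEq

open HahnSeries ModularCurve Polynomial

variable {K : Type*} [CommRing K]

/-- The subring of Laurent series all of whose coefficients lie in the subring `S`. -/
def coeffSubring (S : Subring K) : Subring (LaurentSeries K) where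
  carrier := {f | ∀ n, f.coeff n ∈ S}
  mul_mem' := by
    intro f g hf hg n
    rw [HahnSeries.coeff_mul]
    exact Subring.sum_mem _ fun ij _ => Subring.mul_mem _ (hf _) (hg _)
  one_mem' := by
    intro n
    rw [HahnSeries.coeff_one]
    split_ifs
    · exact Subring.one_mem _
    · exact Subring.zero_mem _
  add_mem' := by
    intro f g hf hg n
    rw [HahnSeries.coeff_add]
    exact Subring.add_mem _ (hf _) (hg _)
  zero_mem' := by
    intro n
    rw [HahnSeries.coeff_zero]
    exact Subring.zero_mem _
  neg_mem' := by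
    intro f hf n
    rw [HahnSeries.coeff_neg]
    exact Subring.neg_mem _ (hf _)

theorem mem_coeffSubring {S : Subring K} {f : LaurentSeries K} :
    f ∈ coeffSubring S ↔ ∀ n, f.coeff n ∈ S := Iff.rfl

theorem C_mem_coeffSubring {S : Subring K} {a : K} (ha : a ∈ S) :
    HahnSeries.C a ∈ coeffSubring S := by
  intro n
  rw [HahnSeries.C_apply]
  by_cases h : n = 0
  · subst h
    rw [HahnSeries.coeff_single_same]
    exact ha
  · rw [HahnSeries.coeff_single_of_ne h]
    exact Subring.zero_mem _

theorem jqModC_mem_coeffSubring (S : Subring K) : jqModC K ∈ coeffSubring S := by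
  intro n
  rw [coeff_jqModC_eq_intCast]
  exact intCast_mem S _

theorem qExpand_mem_coeffSubring_iff (S : Subring K) (N : ℕ) [NeZero N] (f : LaurentSeries K) :
    qExpand K N f ∈ coeffSubring S ↔ f ∈ coeffSubring S := by
  constructor
  · intro h n
    have := h ((N : ℤ) * n)
    rwa [qExpand_coeff_mul] at this
  · intro h n
    by_cases hn : (N : ℤ) ∣ n
    · obtain ⟨k, rfl⟩ := hn
      rw [qExpand_coeff_mul]
      exact h k
    · rw [qExpand_coeff_of_not_dvd N f hn]
      exact Subring.zero_mem _

theorem opU_mem_coeffSubring {S : Subring K} (p : ℕ) [NeZero p] {f : LaurentSeries K}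
    (hf : f ∈ coeffSubring S) : opU p f ∈ coeffSubring S := fun _ => hf _

theorem twist_mem_coeffSubring {S : Subring K} {ζ : Kˣ} (hζ : ∀ n : ℤ, ((ζ ^ n : Kˣ) : K) ∈ S)
    {f : LaurentSeries K} (hf : f ∈ coeffSubring S) : twist ζ f ∈ coeffSubring S := fun n => by
  rw [twist_coeff]
  exact Subring.mul_mem _ (hζ n) (hf n)

theorem smul_mem_coeffSubring {S : Subring K} {a : K} (ha : a ∈ S) {f : LaurentSeries K}
    (hf : f ∈ coeffSubring S) : a • f ∈ coeffSubring S := fun n => by
  rw [HahnSeries.coeff_smul]
  exact Subring.mul_mem _ ha (hf n)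

/-- The coefficient of `q ^ (-d)` in `E(j)` for a polynomial `E` of degree at most `d`. -/
theorem coeff_eval₂_jqModC (E : Polynomial K) {d : ℕ} (hd : E.natDegree ≤ d) :
    (E.eval₂ HahnSeries.C (jqModC K)).coeff (-(d : ℤ)) = E.coeff d := by
  rw [Polynomial.eval₂_eq_sum_range' (HahnSeries.C : K →+* LaurentSeries K)
    (Nat.lt_succ_of_le hd), HahnSeries.coeff_sum,
    Finset.sum_range_succ]
  have hlast : (HahnSeries.C (E.coeff d) * jqModC K ^ d).coeff (-(d : ℤ)) = E.coeff d := by
    rw [HahnSeries.C_mul_eq_smul, HahnSeries.coeff_smul, coeff_jqModC_pow_self, smul_eq_mul,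
      mul_one]
  rw [hlast]
  have hrest : ∑ i ∈ Finset.range d,
      (HahnSeries.C (E.coeff i) * jqModC K ^ i).coeff (-(d : ℤ)) = 0 := by
    apply Finset.sum_eq_zero
    intro i hi
    have hi := Finset.mem_range.mp hi
    rw [HahnSeries.C_mul_eq_smul, HahnSeries.coeff_smul,
      coeff_jqModC_pow_of_lt K (by omega : -(d : ℤ) < -(i : ℤ)), smul_zero]
  rw [hrest, zero_add]

/-- **Triangular lemma.** If all coefficients of `E(j)` lie in the subring `S`, so do the
coefficients of `E`. -/
theorem coeff_mem_of_eval₂_jqModC_mem (S : Subring K) :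
    ∀ (d : ℕ) (E : Polynomial K), E.natDegree ≤ d →
      E.eval₂ HahnSeries.C (jqModC K) ∈ coeffSubring S → ∀ i, E.coeff i ∈ S := by
  intro d
  induction d with
  | zero =>
    intro E hE h i
    have h0 := coeff_eval₂_jqModC E hE
    have hmem := h (-((0 : ℕ) : ℤ))
    rw [h0] at hmem
    rcases Nat.eq_zero_or_pos i with rfl | hi
    · exact hmem
    · rw [Polynomial.coeff_eq_zero_of_natDegree_lt (lt_of_le_of_lt hE hi)]
      exact Subring.zero_mem _
  | succ d ih =>
    intro E hE h i
    have h0 := coeff_eval₂_jqModC E hE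
    have hmem : E.coeff (d + 1) ∈ S := by
      have := h (-((d + 1 : ℕ) : ℤ))
      rwa [h0] at this
    set E' : Polynomial K := E - Polynomial.C (E.coeff (d + 1)) * Polynomial.X ^ (d + 1) with hE'
    have hE'deg : E'.natDegree ≤ d := by
      rw [Polynomial.natDegree_le_iff_coeff_eq_zero]
      intro N hN
      rw [hE', Polynomial.coeff_sub, Polynomial.coeff_C_mul, Polynomial.coeff_X_pow]
      rcases Nat.lt_or_ge (d + 1) N with hlt | hge
      · rw [Polynomial.coeff_eq_zero_of_natDegree_lt (lt_of_le_of_lt hE hlt),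
          if_neg (by omega), mul_zero, sub_zero]
      · have : N = d + 1 := by omega
        subst this
        simp
    have hE'mem : E'.eval₂ HahnSeries.C (jqModC K) ∈ coeffSubring S := by
      rw [hE', Polynomial.eval₂_sub, Polynomial.eval₂_mul, Polynomial.eval₂_C,
        Polynomial.eval₂_pow, Polynomial.eval₂_X]
      exact Subring.sub_mem _ h (Subring.mul_mem _ (C_mem_coeffSubring hmem)
        (Subring.pow_mem _ (jqModC_mem_coeffSubring S) _))
    have hi' := ih E' hE'deg hE'mem i
    by_cases hid : i = d + 1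
    · subst hid; exact hmem
    · have : E.coeff i = E'.coeff i := by
        rw [hE', Polynomial.coeff_sub, Polynomial.coeff_C_mul, Polynomial.coeff_X_pow,
          if_neg hid, mul_zero, sub_zero]
      rw [this]
      exact hi'

theorem coeff_mem_of_eval₂_jqModC_mem' (S : Subring K) (E : Polynomial K)
    (h : E.eval₂ HahnSeries.C (jqModC K) ∈ coeffSubring S) (i : ℕ) : E.coeff i ∈ S :=
  coeff_mem_of_eval₂_jqModC_mem S E.natDegree E le_rfl h i

/-- Triangular lemma for `j(q^N)`. -/
theorem coeff_mem_of_eval₂_qExpand_mem (S : Subring K) (N : ℕ) [NeZero N] (E : Polynomial K)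
    (h : E.eval₂ HahnSeries.C (qExpand K N (jqModC K)) ∈ coeffSubring S) (i : ℕ) :
    E.coeff i ∈ S := by
  apply coeff_mem_of_eval₂_jqModC_mem' S E _ i
  have hcomp : (qExpand K N).comp HahnSeries.C = HahnSeries.C := by
    ext a : 1
    simp
  have : qExpand K N (E.eval₂ HahnSeries.C (jqModC K)) =
      E.eval₂ HahnSeries.C (qExpand K N (jqModC K)) := by
    rw [Polynomial.hom_eval₂, hcomp]
  rw [← this] at h
  exact (qExpand_mem_coeffSubring_iff S N _).mp h

end Fermat.Agent.S28.ModEq
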