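import Mathlib
import Fermat.Agent.S28.ModEq.RootSum
import Fermat.Agent.S28.ModEq.Triangular

set_option autoImplicit false

/-!
The `p + 1` formal roots of the prime-level modular equation (in the variable `u = q^(1/p)`)
and their power sums.
-/

namespace Fermat.Agent.S28.ModEq

open HahnSeries ModularCurve Polynomial

variable {R : Type*} [CommRing R]

variable (R) in
/-- The formal series `p * T_p (j ^ m) = j^m(q^p) + p * U_p (j^m)`. -/
noncomputable def pT (p : ℕ) [NeZero p] (m : ℕ) : LaurentSeries R :=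
  qExpand R p (jqModC R ^ m) + (p : R) • opU p (jqModC R ^ m)

theorem pT_coeff (p : ℕ) [NeZero p] (m : ℕ) (n : ℤ) :
    (pT R p m).coeff n =
      (qExpand R p (jqModC R ^ m)).coeff n + (p : R) * (jqModC R ^ m).coeff ((p : ℤ) * n) := by
  rw [pT, HahnSeries.coeff_add, HahnSeries.coeff_smul, opU_coeff, smul_eq_mul]

theorem pT_mem_coeffSubring (S : Subring R) (p : ℕ) [NeZero p] (m : ℕ) :
    pT R p m ∈ coeffSubring S := by
  have hJ : jqModC R ^ m ∈ coeffSubring S := Subring.pow_mem _ (jqModC_mem_coeffSubring S) m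
  exact Subring.add_mem _ ((qExpand_mem_coeffSubring_iff S p _).mpr hJ)
    (smul_mem_coeffSubring (natCast_mem S p) (opU_mem_coeffSubring p hJ))

theorem qExpand_smul (N : ℕ) [NeZero N] (r : R) (f : LaurentSeries R) :
    qExpand R N (r • f) = r • qExpand R N f := by
  rw [← HahnSeries.C_mul_eq_smul, map_mul, qExpand_C, HahnSeries.C_mul_eq_smul]

theorem coeffMap_smul {S : Type*} [CommRing S] (φ : R →+* S) (r : R) (f : LaurentSeries R) :
    coeffMap φ (r • f) = φ r • coeffMap φ f := by
  ext n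
  simp

theorem coeffMap_pT {S : Type*} [CommRing S] (φ : R →+* S) (p : ℕ) [NeZero p] (m : ℕ) :
    coeffMap φ (pT R p m) = pT S p m := by
  have hJ : coeffMap φ (jqModC R ^ m) = jqModC S ^ m := by
    rw [map_pow, coeffMap_jqModC]
  rw [pT, pT, map_add, coeffMap_qExpand, hJ, coeffMap_smul, map_natCast, coeffMap_opU, hJ]

/-- The formal roots: `j(u^(p^2))` and `j(ζ^i u)` for `i < p`. -/
noncomputable def formalRoot (p : ℕ) [NeZero p] (ζ : Rˣ) : Option (Fin p) → LaurentSeries R
  | none => qExpand R p (qExpand R p (jqModC R))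
  | some i => twist (ζ ^ (i : ℕ)) (jqModC R)

@[simp]
theorem formalRoot_none (p : ℕ) [NeZero p] (ζ : Rˣ) :
    formalRoot p ζ none = qExpand R p (qExpand R p (jqModC R)) := rfl

@[simp]
theorem formalRoot_some (p : ℕ) [NeZero p] (ζ : Rˣ) (i : Fin p) :
    formalRoot p ζ (some i) = twist (ζ ^ (i : ℕ)) (jqModC R) := rfl

theorem coeffMap_formalRoot {S : Type*} [CommRing S] (φ : R →+* S) (p : ℕ) [NeZero p] (ζ : Rˣ)
    (o : Option (Fin p)) :
    coeffMap φ (formalRoot p ζ o) = formalRoot p (Units.map (φ : R →* S) ζ) o := by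
  cases o with
  | none => simp [coeffMap_qExpand, coeffMap_jqModC]
  | some i => simp [coeffMap_twist, coeffMap_jqModC]

/-- The power sums of the formal roots. -/
theorem sum_formalRoot_pow {p : ℕ} [NeZero p] (hp : p.Prime) {ζ : Rˣ}
    (hζ : (cyclotomic p R).eval (ζ : R) = 0) (m : ℕ) :
    ∑ o, formalRoot p ζ o ^ m = qExpand R p (pT R p m) := by
  rw [Fintype.sum_option]
  simp only [formalRoot_none, formalRoot_some]
  have h1 : ∑ i : Fin p, twist (ζ ^ (i : ℕ)) (jqModC R) ^ m =
      ∑ i ∈ Finset.range p, twist (ζ ^ i) (jqModC R ^ m) := by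
    rw [← Fin.sum_univ_eq_sum_range (fun i => twist (ζ ^ i) (jqModC R ^ m)) p]
    refine Finset.sum_congr rfl fun i _ => ?_
    rw [map_pow]
  rw [h1, sum_twist_eq hp hζ, pT, map_add, qExpand_smul, ← (qExpand R p).map_pow,
    ← (qExpand R p).map_pow]

theorem prod_X_sub_C_formalRoot (p : ℕ) [NeZero p] (ζ : Rˣ) :
    ∏ o, (X - Polynomial.C (formalRoot p ζ o)) =
      (X - Polynomial.C (qExpand R p (qExpand R p (jqModC R)))) *
        ∏ i ∈ Finset.range p, (X - Polynomial.C (twist (ζ ^ i) (jqModC R))) := by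
  rw [Fintype.prod_option]
  simp only [formalRoot_none, formalRoot_some]
  rw [← Fin.prod_univ_eq_prod_range (fun i => X - Polynomial.C (twist (ζ ^ i) (jqModC R))) p]

end Fermat.Agent.S28.ModEq
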