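import Mathlib
import Fermat.Agent.S28.ModEq.Roots
import Fermat.Agent.S28.ModEq.Newton

set_option autoImplicit false

/-!
The prime-level modular equation over `ℂ`: from the analytic input (the power sums
`p T_p (j^m)` are polynomials in `j`) we get a monic `Φ ∈ ℤ[Y][X]` of degree `p + 1`
with `Φ(X, j(u^p)) = ∏ (X - ρ)` over the `p + 1` formal roots.
-/

namespace Fermat.Agent.S28.ModEq

open HahnSeries ModularCurve Polynomial

/-- The analytic input, in coefficient form: `j^m(q^p) + p U_p(j^m)` is a polynomial in `j`. -/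
def AnalyticInput (p : ℕ) [NeZero p] : Prop :=
  ∀ m : ℕ, ∃ Rm : Polynomial ℂ, ∀ n : ℤ,
    (Polynomial.aeval (jqModC ℂ) Rm).coeff n =
      (qExpand ℂ p (jqModC ℂ ^ m)).coeff n + (p : ℂ) * (jqModC ℂ ^ m).coeff ((p : ℤ) * n)

/-- Evaluation of integer polynomials at `j(u^p)`. -/
noncomputable def evZ (R : Type*) [CommRing R] (p : ℕ) [NeZero p] :
    Polynomial ℤ →+* LaurentSeries R :=
  Polynomial.eval₂RingHom (Int.castRingHom (LaurentSeries R)) (qExpand R p (jqModC R))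

theorem evZ_apply (R : Type*) [CommRing R] (p : ℕ) [NeZero p] (E : Polynomial ℤ) :
    evZ R p E = E.eval₂ (Int.castRingHom (LaurentSeries R)) (qExpand R p (jqModC R)) := rfl

theorem coeffMap_comp_evZ {R S : Type*} [CommRing R] [CommRing S] (φ : R →+* S) (p : ℕ)
    [NeZero p] : (coeffMap φ).comp (evZ R p) = evZ S p := by
  apply Polynomial.ringHom_ext
  · intro a
    simp [evZ]
  · simp [evZ, coeffMap_qExpand, coeffMap_jqModC]

/-- Evaluation of rational polynomials at `j(u^p)` over `ℂ`. -/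
noncomputable def evQ (p : ℕ) [NeZero p] : Polynomial ℚ →+* LaurentSeries ℂ :=
  Polynomial.eval₂RingHom ((HahnSeries.C : ℂ →+* LaurentSeries ℂ).comp (algebraMap ℚ ℂ))
    (qExpand ℂ p (jqModC ℂ))

theorem evQ_map_intCast (p : ℕ) [NeZero p] (E : Polynomial ℤ) :
    evQ p (E.map (Int.castRingHom ℚ)) = evZ ℂ p E := by
  have h : ((HahnSeries.C : ℂ →+* LaurentSeries ℂ).comp (algebraMap ℚ ℂ)).comp
      (Int.castRingHom ℚ) = Int.castRingHom (LaurentSeries ℂ) := RingHom.ext_int _ _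
  rw [evQ, evZ, Polynomial.coe_eval₂RingHom, Polynomial.coe_eval₂RingHom, Polynomial.eval₂_map, h]

theorem evQ_eq_eval₂_C (p : ℕ) [NeZero p] (E : Polynomial ℚ) :
    evQ p E = (E.map (algebraMap ℚ ℂ)).eval₂ (HahnSeries.C : ℂ →+* LaurentSeries ℂ)
      (qExpand ℂ p (jqModC ℂ)) := by
  rw [evQ, Polynomial.coe_eval₂RingHom, Polynomial.eval₂_map]

theorem natCast_ne_zero_laurent {n : ℕ} (hn : 0 < n) : (n : LaurentSeries ℂ) ≠ 0 := by
  have h : (n : LaurentSeries ℂ) = HahnSeries.C (n : ℂ) := (map_natCast _ n).symm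
  rw [h]
  intro h0
  have : (n : ℂ) = 0 := HahnSeries.C_injective (by rw [h0, map_zero])
  exact (Nat.cast_ne_zero.mpr hn.ne') this

theorem evQ_range_div (p : ℕ) [NeZero p] (n : ℕ) (x : LaurentSeries ℂ) (hn : 0 < n)
    (h : (n : LaurentSeries ℂ) * x ∈ (evQ p).range) : x ∈ (evQ p).range := by
  obtain ⟨E, hE⟩ := h
  refine ⟨Polynomial.C ((n : ℚ)⁻¹) * E, ?_⟩
  apply mul_left_cancel₀ (natCast_ne_zero_laurent hn)
  rw [← hE, map_mul, ← mul_assoc]
  have : (n : LaurentSeries ℂ) * evQ p (Polynomial.C ((n : ℚ)⁻¹)) = 1 := by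
    have h1 : (n : LaurentSeries ℂ) = evQ p (Polynomial.C (n : ℚ)) := by
      rw [Polynomial.C_eq_natCast, map_natCast]
    rw [h1, ← map_mul, ← map_mul, mul_inv_cancel₀ (Nat.cast_ne_zero.mpr hn.ne'), map_one, map_one]
  rw [this, one_mul]

/-- The subring of integers of `ℂ`. -/
def intSubring : Subring ℂ := (Int.castRingHom ℂ).range

/-- The subring of algebraic integers of `ℂ`. -/
def algIntSubring : Subring ℂ := (integralClosure ℤ ℂ).toSubring

theorem mem_algIntSubring {x : ℂ} : x ∈ algIntSubring ↔ IsIntegral ℤ x := Iff.rfl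

/-- The analytic input in bundled form: `p T_p (j^m)` is an integer polynomial in `j`. -/
theorem exists_int_poly_pT {p : ℕ} [NeZero p] (hAN : AnalyticInput p) (m : ℕ) :
    ∃ Rm : Polynomial ℤ, evZ ℂ p Rm = qExpand ℂ p (pT ℂ p m) := by
  obtain ⟨Rm, hRm⟩ := hAN m
  have h1 : Rm.eval₂ (HahnSeries.C : ℂ →+* LaurentSeries ℂ) (jqModC ℂ) = pT ℂ p m := by
    ext n
    have halg : (algebraMap ℂ (LaurentSeries ℂ)) = (HahnSeries.C : ℂ →+* LaurentSeries ℂ) := by
      ext c : 1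
      rw [ModularCurve.algebraMap_laurentSeries_eq_single]
      rfl
    rw [pT_coeff, ← hRm n, Polynomial.aeval_def, halg]
  have h2 : ∀ i, Rm.coeff i ∈ intSubring := by
    apply coeff_mem_of_eval₂_jqModC_mem' intSubring Rm
    rw [h1]
    exact pT_mem_coeffSubring _ p m
  have h3 : Rm ∈ Polynomial.lifts (Int.castRingHom ℂ) :=
    (Polynomial.lifts_iff_coeff_lifts Rm).mpr h2
  obtain ⟨Rm', hRm'⟩ := (Polynomial.mem_lifts Rm).mp h3
  refine ⟨Rm', ?_⟩
  have hcomp : (qExpand ℂ p).comp (HahnSeries.C : ℂ →+* LaurentSeries ℂ) = HahnSeries.C := by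
    ext a : 1
    simp
  rw [← h1, ← hRm', Polynomial.eval₂_map, Polynomial.hom_eval₂, evZ_apply]
  congr 1
  exact RingHom.ext_int _ _

theorem zpow_mem_algIntSubring {p : ℕ} (hp : p.Prime) {ζ : ℂˣ}
    (hζ : (cyclotomic p ℂ).eval (ζ : ℂ) = 0) (n : ℤ) : ((ζ ^ n : ℂˣ) : ℂ) ∈ algIntSubring := by
  rw [mem_algIntSubring]
  have h1 : ζ ^ p = 1 := unit_pow_eq_one_of_cyclotomic hp hζ
  have h2 : (((ζ ^ n : ℂˣ) : ℂ)) ^ p = 1 := by
    rw [← Units.val_pow_eq_pow_val, ← zpow_natCast, ← zpow_mul, mul_comm, zpow_mul, zpow_natCast,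
      h1, one_zpow, Units.val_one]
  refine ⟨X ^ p - 1, Polynomial.monic_X_pow_sub_C 1 hp.ne_zero, ?_⟩
  rw [Polynomial.eval₂_sub, Polynomial.eval₂_pow, Polynomial.eval₂_X, Polynomial.eval₂_one, h2,
    sub_self]

theorem formalRoot_mem_coeffSubring {p : ℕ} [NeZero p] (hp : p.Prime) {ζ : ℂˣ}
    (hζ : (cyclotomic p ℂ).eval (ζ : ℂ) = 0) (o : Option (Fin p)) :
    formalRoot p ζ o ∈ coeffSubring algIntSubring := by
  cases o with
  | none =>
    rw [formalRoot_none, qExpand_mem_coeffSubring_iff, qExpand_mem_coeffSubring_iff]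
    exact jqModC_mem_coeffSubring _
  | some i =>
    rw [formalRoot_some]
    apply twist_mem_coeffSubring _ (jqModC_mem_coeffSubring _)
    intro n
    rw [← zpow_natCast, ← zpow_mul]
    exact zpow_mem_algIntSubring hp hζ _

theorem coeff_prod_mem_of_mem {A : Type*} [CommRing A] (S : Subring A) {σ : Type*} [Fintype σ]
    (ρ : σ → A) (h : ∀ i, ρ i ∈ S) (k : ℕ) :
    (∏ i, (X - Polynomial.C (ρ i))).coeff k ∈ S := by
  have hmem : (∏ i, (X - Polynomial.C (ρ i))) ∈ Polynomial.liftsRing S.subtype := by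
    apply Subring.prod_mem
    intro i _
    apply Subring.sub_mem
    · rw [← Polynomial.lifts_iff_liftsRing]
      exact Polynomial.X_mem_lifts _
    · rw [← Polynomial.lifts_iff_liftsRing]
      exact Polynomial.C_mem_lifts S.subtype ⟨ρ i, h i⟩
  rw [← Polynomial.lifts_iff_liftsRing, Polynomial.lifts_iff_coeff_lifts] at hmem
  obtain ⟨y, hy⟩ := hmem k
  rw [← hy]
  exact y.2

theorem mem_evZ_range_of_mem {p : ℕ} [NeZero p] {x : LaurentSeries ℂ}
    (h1 : x ∈ (evQ p).range) (h2 : x ∈ coeffSubring algIntSubring) : x ∈ (evZ ℂ p).range := by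
  obtain ⟨E, rfl⟩ := h1
  rw [evQ_eq_eval₂_C] at h2
  have h3 := coeff_mem_of_eval₂_qExpand_mem algIntSubring p _ h2
  have h4 : E ∈ Polynomial.lifts (Int.castRingHom ℚ) := by
    rw [Polynomial.lifts_iff_coeff_lifts]
    intro i
    have hi := h3 i
    rw [Polynomial.coeff_map, mem_algIntSubring] at hi
    have hi' : IsIntegral ℤ (E.coeff i) :=
      (isIntegral_algebraMap_iff (algebraMap ℚ ℂ).injective).mp hi
    obtain ⟨y, hy⟩ := IsIntegrallyClosed.isIntegral_iff.mp hi'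
    exact ⟨y, by simpa using hy⟩
  obtain ⟨E', rfl⟩ := (Polynomial.mem_lifts E).mp h4
  exact ⟨E', (evQ_map_intCast p E').symm⟩

/-- **The modular equation over `ℂ`.** -/
theorem exists_modPoly_complex {p : ℕ} [NeZero p] (hp : p.Prime) (hAN : AnalyticInput p)
    {ζ : ℂˣ} (hζ : (cyclotomic p ℂ).eval (ζ : ℂ) = 0) :
    ∃ Φ : Polynomial (Polynomial ℤ), Φ.Monic ∧ Φ.natDegree = p + 1 ∧
      Φ.map (evZ ℂ p) = ∏ o, (X - Polynomial.C (formalRoot p ζ o)) := by
  set P : Polynomial (LaurentSeries ℂ) := ∏ o, (X - Polynomial.C (formalRoot p ζ o)) with hP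
  have hpsum : ∀ m : ℕ, 1 ≤ m → ∑ o, formalRoot p ζ o ^ m ∈ (evQ p).range := by
    intro m _
    rw [sum_formalRoot_pow hp hζ m]
    obtain ⟨Rm, hRm⟩ := exists_int_poly_pT hAN m
    exact ⟨Rm.map (Int.castRingHom ℚ), by rw [evQ_map_intCast, hRm]⟩
  have hcoeffQ : ∀ k, P.coeff k ∈ (evQ p).range :=
    coeff_prod_X_sub_C_mem_of_psum_mem (evQ p).range (evQ_range_div p) _ hpsum
  have hcoeffO : ∀ k, P.coeff k ∈ coeffSubring algIntSubring :=
    coeff_prod_mem_of_mem _ _ (formalRoot_mem_coeffSubring hp hζ)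
  have hlifts : P ∈ Polynomial.lifts (evZ ℂ p) := by
    rw [Polynomial.lifts_iff_coeff_lifts]
    intro k
    exact mem_evZ_range_of_mem (hcoeffQ k) (hcoeffO k)
  have hmonic : P.Monic := Polynomial.monic_prod_of_monic _ _ fun o _ => Polynomial.monic_X_sub_C _
  have hdeg : P.natDegree = p + 1 := by
    rw [hP, Polynomial.natDegree_prod_of_monic _ _ fun o _ => Polynomial.monic_X_sub_C _]
    simp
  obtain ⟨Φ, hΦ, hΦdeg, hΦmonic⟩ := Polynomial.lifts_and_natDegree_eq_and_monic hlifts hmonic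
  exact ⟨Φ, hΦmonic, hΦdeg.trans hdeg, hΦ⟩

end Fermat.Agent.S28.ModEq
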