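import Mathlib
import Fermat.Agent.S28.ModEq.CoreC

set_option autoImplicit false

/-!
Transfer of the modular equation from `ℂ` to the universal ring `ℤ[x]/(Φ_p(x))` and from there
to every commutative ring with a root of the `p`-th cyclotomic polynomial.
-/

namespace Fermat.Agent.S28.ModEq

open HahnSeries ModularCurve Polynomial

universe u

/-- The universal ring with a root of the `p`-th cyclotomic polynomial. -/
abbrev CycRing (p : ℕ) : Type := AdjoinRoot (cyclotomic p ℤ)

theorem cyclotomic_eval_root (p : ℕ) :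
    (cyclotomic p (CycRing p)).eval (AdjoinRoot.root (cyclotomic p ℤ)) = 0 := by
  rw [← Polynomial.map_cyclotomic_int p (CycRing p), Polynomial.eval_map]
  exact AdjoinRoot.eval₂_root _

/-- The universal root as a unit. -/
noncomputable def cycUnit {p : ℕ} (hp : p.Prime) : (CycRing p)ˣ :=
  Units.ofPowEqOne (AdjoinRoot.root (cyclotomic p ℤ)) p
    (pow_eq_one_of_cyclotomic hp (cyclotomic_eval_root p)) hp.ne_zero

@[simp]
theorem val_cycUnit {p : ℕ} (hp : p.Prime) :
    ((cycUnit hp : (CycRing p)ˣ) : CycRing p) = AdjoinRoot.root (cyclotomic p ℤ) := rfl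

/-- The standard primitive `p`-th root of unity in `ℂ`. -/
noncomputable def zetaC (p : ℕ) : ℂ := Complex.exp (2 * Real.pi * Complex.I / p)

theorem isPrimitiveRoot_zetaC {p : ℕ} (hp : p ≠ 0) : IsPrimitiveRoot (zetaC p) p :=
  Complex.isPrimitiveRoot_exp p hp

theorem cyclotomic_eval_zetaC {p : ℕ} (hp : p ≠ 0) : (cyclotomic p ℂ).eval (zetaC p) = 0 :=
  (isPrimitiveRoot_zetaC hp).isRoot_cyclotomic (Nat.pos_of_ne_zero hp)

/-- `zetaC p` as a unit. -/
noncomputable def zetaCUnit {p : ℕ} (hp : p.Prime) : ℂˣ :=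
  Units.ofPowEqOne (zetaC p) p
    (pow_eq_one_of_cyclotomic hp (cyclotomic_eval_zetaC hp.ne_zero)) hp.ne_zero

@[simp]
theorem val_zetaCUnit {p : ℕ} (hp : p.Prime) : ((zetaCUnit hp : ℂˣ) : ℂ) = zetaC p := rfl

/-- Ring homomorphisms out of the universal ring. -/
noncomputable def cycLift {R : Type*} [CommRing R] (p : ℕ) (ζ : R)
    (hζ : (cyclotomic p R).eval ζ = 0) : CycRing p →+* R :=
  AdjoinRoot.lift (Int.castRingHom R) ζ (by
    rw [← Polynomial.eval_map, Polynomial.map_cyclotomic_int]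
    exact hζ)

@[simp]
theorem cycLift_root {R : Type*} [CommRing R] (p : ℕ) (ζ : R)
    (hζ : (cyclotomic p R).eval ζ = 0) :
    cycLift p ζ hζ (AdjoinRoot.root (cyclotomic p ℤ)) = ζ := by
  simp [cycLift]

theorem cycLift_injective_complex {p : ℕ} (hp : p.Prime) :
    Function.Injective (cycLift p (zetaC p) (cyclotomic_eval_zetaC hp.ne_zero)) := by
  rw [injective_iff_map_eq_zero]
  intro x hx
  obtain ⟨f, rfl⟩ := AdjoinRoot.mk_surjective x
  rw [cycLift, AdjoinRoot.lift_mk] at hx
  rw [AdjoinRoot.mk_eq_zero]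
  have hprim := isPrimitiveRoot_zetaC hp.ne_zero
  rw [Polynomial.cyclotomic_eq_minpoly hprim hp.pos]
  apply minpoly.isIntegrallyClosed_dvd (hprim.isIntegral hp.pos)
  rw [Polynomial.aeval_def]
  convert hx using 2
  exact RingHom.ext_int _ _

theorem coeffMap_injective {R S : Type*} [CommRing R] [CommRing S] {φ : R →+* S}
    (hφ : Function.Injective φ) : Function.Injective (coeffMap φ) := by
  intro x y h
  ext n
  apply hφ
  have := congrArg (fun z => HahnSeries.coeff z n) h
  simpa using this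

theorem map_prod_X_sub_C_formalRoot {R S : Type*} [CommRing R] [CommRing S] (φ : R →+* S)
    (p : ℕ) [NeZero p] (ζ : Rˣ) :
    (∏ o, (X - Polynomial.C (formalRoot p ζ o))).map (coeffMap φ) =
      ∏ o, (X - Polynomial.C (formalRoot p (Units.map (φ : R →* S) ζ) o)) := by
  rw [Polynomial.map_prod]
  refine Finset.prod_congr rfl fun o _ => ?_
  rw [Polynomial.map_sub, Polynomial.map_X, Polynomial.map_C, coeffMap_formalRoot]

/-- The identity over the universal ring. -/
theorem modPoly_cycRing {p : ℕ} [NeZero p] (hp : p.Prime) {Φ : Polynomial (Polynomial ℤ)}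
    (hΦ : Φ.map (evZ ℂ p) = ∏ o, (X - Polynomial.C (formalRoot p (zetaCUnit hp) o))) :
    Φ.map (evZ (CycRing p) p) = ∏ o, (X - Polynomial.C (formalRoot p (cycUnit hp) o)) := by
  set ι := cycLift p (zetaC p) (cyclotomic_eval_zetaC hp.ne_zero) with hι
  apply Polynomial.map_injective (coeffMap ι) (coeffMap_injective (cycLift_injective_complex hp))
  rw [Polynomial.map_map, coeffMap_comp_evZ, map_prod_X_sub_C_formalRoot, hΦ]
  have hu : Units.map (ι : CycRing p →* ℂ) (cycUnit hp) = zetaCUnit hp := by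
    ext
    simp [hι]
  rw [hu]

/-- **The prime-level modular equation**, conditional on the analytic input. -/
theorem exists_modPoly {p : ℕ} [NeZero p] (hp : p.Prime) (hAN : AnalyticInput p) :
    ∃ Φ : Polynomial (Polynomial ℤ), Φ.Monic ∧ Φ.natDegree = p + 1 ∧
      ∀ (R : Type u) [CommRing R] (ζ : Rˣ), (cyclotomic p R).eval (ζ : R) = 0 →
        Φ.map (evZ R p) = ∏ o, (X - Polynomial.C (formalRoot p ζ o)) := by
  obtain ⟨Φ, hmonic, hdeg, hΦ⟩ := exists_modPoly_complex hp hAN
    (ζ := zetaCUnit hp) (cyclotomic_eval_zetaC hp.ne_zero)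
  refine ⟨Φ, hmonic, hdeg, ?_⟩
  intro R _ ζ hζ
  have h0 := modPoly_cycRing hp hΦ
  have h1 := congrArg (Polynomial.map (coeffMap (cycLift p (ζ : R) hζ))) h0
  rw [Polynomial.map_map, coeffMap_comp_evZ, map_prod_X_sub_C_formalRoot] at h1
  have hu : Units.map ((cycLift p (ζ : R) hζ : CycRing p →+* R) : CycRing p →* R) (cycUnit hp) =
      ζ := by
    ext
    simp
  rw [hu] at h1
  exact h1

/-- Expanded form of the modular equation. -/
theorem exists_modPoly' {p : ℕ} [NeZero p] (hp : p.Prime) (hAN : AnalyticInput p) :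
    ∃ Φ : Polynomial (Polynomial ℤ), Φ.Monic ∧ Φ.natDegree = p + 1 ∧
      ∀ (R : Type u) [CommRing R] (ζ : Rˣ), (cyclotomic p R).eval (ζ : R) = 0 →
        Φ.map (Polynomial.eval₂RingHom (Int.castRingHom (LaurentSeries R))
            (qExpand R p (jqModC R))) =
          (X - Polynomial.C (qExpand R p (qExpand R p (jqModC R)))) *
            ∏ i ∈ Finset.range p, (X - Polynomial.C (twist (ζ ^ i) (jqModC R))) := by
  obtain ⟨Φ, hmonic, hdeg, hΦ⟩ := exists_modPoly.{u} hp hAN
  refine ⟨Φ, hmonic, hdeg, ?_⟩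
  intro R _ ζ hζ
  rw [← prod_X_sub_C_formalRoot]
  exact hΦ R ζ hζ

end Fermat.Agent.S28.ModEq
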