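import Mathlib
import Fermat.Agent.S28.Defs
import Fermat.Agent.S28.ModEq.Universal
import Fermat.Agent.S28.ModEq.Analytic

set_option autoImplicit false

/-!
Assembly of the prime-level modular equation `(A_p)`: the analytic input `powerSum_eq_aeval`
and the formal half `exists_modPoly'` give an inhabitant of `Fermat.Agent.S28.ModularEquation p`.
-/

namespace Fermat.Agent.S28.ModEq

open HahnSeries ModularCurve Polynomial

theorem twist_eq_twist {R : Type*} [CommRing R] (ζ : Rˣ) :
    Fermat.Agent.S28.ModEq.twist ζ = Fermat.Agent.S28.twist ζ := by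
  ext f n
  rw [Fermat.Agent.S28.ModEq.twist_coeff, Fermat.Agent.S28.twist_coeff]

theorem analyticInput (p : ℕ) [NeZero p] (hp : p.Prime) : AnalyticInput p :=
  fun m => powerSum_eq_aeval p hp m

/-- **(A_p)**: the prime-level modular equation, unconditionally, over every commutative ring
with a root of the `p`-th cyclotomic polynomial. -/
theorem exists_modularPolynomial (p : ℕ) [NeZero p] (hp : p.Prime) :
    ∃ Φ : Polynomial (Polynomial ℤ), Φ.Monic ∧ Φ.natDegree = p + 1 ∧
      ∀ (R : Type) [CommRing R] (ζ : Rˣ), (cyclotomic p R).eval (ζ : R) = 0 →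
        Φ.map (evalY (qExpand R p (jqModC R))) =
          (X - Polynomial.C (qExpand R (p ^ 2) (jqModC R))) *
            ∏ i ∈ Finset.range p,
              (X - Polynomial.C (Fermat.Agent.S28.twist (ζ ^ i) (jqModC R))) := by
  obtain ⟨Φ, hmonic, hdeg, hΦ⟩ := exists_modPoly'.{0} hp (analyticInput p hp)
  refine ⟨Φ, hmonic, hdeg, ?_⟩
  intro R _ ζ hζ
  have h := hΦ R ζ hζ
  have hq : qExpand R p (qExpand R p (jqModC R)) = qExpand R (p ^ 2) (jqModC R) := by
    rw [qExpand_qExpand]
    exact qExpand_congr (by ring) _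
  rw [hq] at h
  simp only [twist_eq_twist] at h
  exact h

theorem nonempty_modularEquation (p : ℕ) [NeZero p] (hp : p.Prime) :
    Nonempty (ModularEquation p) := by
  obtain ⟨Φ, hmonic, hdeg, hΦ⟩ := exists_modularPolynomial p hp
  refine ⟨⟨Φ, hmonic, hdeg, ?_⟩⟩
  intro R _ _ ζ hζ
  apply hΦ R ζ
  have h1 : IsPrimitiveRoot (ζ : R) p := IsPrimitiveRoot.coe_units_iff.mpr hζ
  exact h1.isRoot_cyclotomic hp.pos

/-- The modular equation of prime level `p`. -/
noncomputable def modularEquation (p : ℕ) [NeZero p] (hp : p.Prime) : ModularEquation p :=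
  Classical.choice (nonempty_modularEquation p hp)

end Fermat.Agent.S28.ModEq

namespace Fermat.Agent.S28

/-- **(A_p)**: the modular equation of prime level `p` exists. -/
theorem exists_modularEquation (p : ℕ) [NeZero p] (hp : p.Prime) : Nonempty (ModularEquation p) :=
  ModEq.nonempty_modularEquation p hp

end Fermat.Agent.S28
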